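import Mathlib

/-!
# S17-ALG: divided differences (pure algebra over a field)
`ddF s x y = ∑_{j ∈ s} y_j / ∏_{i ∈ s, i ≠ j} (x_j - x_i)`  (nodes `x`, values `y`, index set `s`).
-/

set_option autoImplicit false

namespace Fermat.Agent.S17

variable {Ω : Type*} [Field Ω] {κ : Type*} [DecidableEq κ]

/-- divided difference of the values `y` at the nodes `x`, over the index set `s` -/
noncomputable def ddF (s : Finset κ) (x y : κ → Ω) : Ω :=
  ∑ j ∈ s, y j / ∏ i ∈ s.erase j, (x j - x i)

@[simp] theorem ddF_singleton (j : κ) (x y : κ → Ω) : ddF {j} x y = y j := by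
  simp [ddF]

theorem ddF_congr {s : Finset κ} {x y y' : κ → Ω} (h : ∀ j ∈ s, y j = y' j) : ddF s x y = ddF s x y' := by
  unfold ddF
  exact Finset.sum_congr rfl fun j hj => by rw [h j hj]

theorem ddF_add (s : Finset κ) (x y z : κ → Ω) : ddF s x (fun j => y j + z j) = ddF s x y + ddF s x z := by
  unfold ddF
  rw [← Finset.sum_add_distrib]
  exact Finset.sum_congr rfl fun j _ => add_div _ _ _

theorem ddF_const_mul (s : Finset κ) (x y : κ → Ω) (c : Ω) : ddF s x (fun j => c * y j) = c * ddF s x y := by
  unfold ddF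
  rw [Finset.mul_sum]
  exact Finset.sum_congr rfl fun j _ => mul_div_assoc _ _ _

theorem ddF_sum {ι : Type*} (I : Finset ι) (s : Finset κ) (x : κ → Ω) (y : ι → κ → Ω) :
    ddF s x (fun j => ∑ i ∈ I, y i j) = ∑ i ∈ I, ddF s x (y i) := by
  unfold ddF
  rw [Finset.sum_comm]
  exact Finset.sum_congr rfl fun j _ => Finset.sum_div _ _ _

/-- reindexing along an injective map -/
theorem ddF_map {κ' : Type*} [DecidableEq κ'] (e : κ' ↪ κ) (s : Finset κ') (x y : κ → Ω) :
    ddF (s.map e) x y = ddF s (x ∘ e) (y ∘ e) := by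
  unfold ddF
  rw [Finset.sum_map]
  refine Finset.sum_congr rfl fun j _ => ?_
  rw [← Finset.map_erase, Finset.prod_map]
  rfl

/-- `Δ_s((x - x_a) h) = Δ_{s∖a} h` -/
theorem ddF_sub_mul {s : Finset κ} {x : κ → Ω} (y : κ → Ω) (hx : Set.InjOn x s) {a : κ} (ha : a ∈ s) :
    ddF s x (fun j => (x j - x a) * y j) = ddF (s.erase a) x y := by
  unfold ddF
  rw [← Finset.add_sum_erase s _ ha]
  beta_reduce
  rw [sub_self, zero_mul, zero_div, zero_add]
  refine Finset.sum_congr rfl fun j hj => ?_
  have hja : j ≠ a := Finset.ne_of_mem_erase hj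
  have hjs : j ∈ s := Finset.mem_of_mem_erase hj
  have hne : x j - x a ≠ 0 := sub_ne_zero.mpr fun h => hja (hx hjs ha h)
  have haj : a ∈ s.erase j := Finset.mem_erase.mpr ⟨hja.symm, ha⟩
  rw [← Finset.mul_prod_erase (s.erase j) _ haj, Finset.erase_right_comm, mul_div_mul_left _ _ hne]

/-- the recursion -/
theorem ddF_erase_sub {s : Finset κ} {x : κ → Ω} (y : κ → Ω) (hx : Set.InjOn x s) {a b : κ} (ha : a ∈ s) (hb : b ∈ s)
    (hab : a ≠ b) : (x b - x a) * ddF s x y = ddF (s.erase a) x y - ddF (s.erase b) x y := by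
  rw [← ddF_sub_mul y hx ha, ← ddF_sub_mul y hx hb, ← ddF_const_mul, eq_sub_iff_add_eq, ← ddF_add]
  exact ddF_congr fun j _ => by ring

/-- `Δ_s(x h) = x_a Δ_s h + Δ_{s∖a} h` -/
theorem ddF_self_mul {s : Finset κ} {x : κ → Ω} (y : κ → Ω) (hx : Set.InjOn x s) {a : κ} (ha : a ∈ s) :
    ddF s x (fun j => x j * y j) = x a * ddF s x y + ddF (s.erase a) x y := by
  rw [← ddF_sub_mul y hx ha, ← ddF_const_mul, ← ddF_add]
  exact ddF_congr fun j _ => by ring

theorem DivDiff_const_aux (c : Ω) (n : ℕ) : ∀ (s : Finset κ) (x : κ → Ω), Set.InjOn x s →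
    s.card = n + 2 → ddF s x (fun _ => c) = 0 := by
  induction n with
  | zero =>
    intro s x hx hs
    obtain ⟨a, b, hab, rfl⟩ := Finset.card_eq_two.mp hs
    have ha : a ∈ ({a, b} : Finset κ) := by simp
    have hb : b ∈ ({a, b} : Finset κ) := by simp
    have hne : x b - x a ≠ 0 := sub_ne_zero.mpr fun h => hab (hx hb ha h).symm
    have h := ddF_erase_sub (fun _ => c) hx ha hb hab
    have e1 : ({a, b} : Finset κ).erase a = {b} := by
      ext t; simp only [Finset.mem_erase, Finset.mem_insert, Finset.mem_singleton]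
      constructor
      · rintro ⟨h1, h2 | h2⟩
        · exact absurd h2 h1
        · exact h2
      · rintro rfl; exact ⟨hab.symm, Or.inr rfl⟩
    have e2 : ({a, b} : Finset κ).erase b = {a} := by
      ext t; simp only [Finset.mem_erase, Finset.mem_insert, Finset.mem_singleton]
      constructor
      · rintro ⟨h1, h2 | h2⟩
        · exact h2
        · exact absurd h2 h1
      · rintro rfl; exact ⟨hab, Or.inl rfl⟩
    rw [e1, e2, ddF_singleton, ddF_singleton, sub_self] at h
    exact (mul_eq_zero.mp h).resolve_left hne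
  | succ n ih =>
    intro s x hx hs
    obtain ⟨a, b, ha, hb, hab⟩ := Finset.one_lt_card_iff.mp (by omega : 1 < s.card)
    have hne : x b - x a ≠ 0 := sub_ne_zero.mpr fun h => hab (hx hb ha h).symm
    have h := ddF_erase_sub (fun _ => c) hx ha hb hab
    rw [ih (s.erase a) x (hx.mono (by exact_mod_cast Finset.erase_subset a s))
        (by rw [Finset.card_erase_of_mem ha]; omega),
      ih (s.erase b) x (hx.mono (by exact_mod_cast Finset.erase_subset b s))
        (by rw [Finset.card_erase_of_mem hb]; omega), sub_self] at h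
    exact (mul_eq_zero.mp h).resolve_left hne

theorem ddF_const {s : Finset κ} {x : κ → Ω} (hx : Set.InjOn x s) (hs : 2 ≤ s.card) (c : Ω) :
    ddF s x (fun _ => c) = 0 :=
  DivDiff_const_aux c (s.card - 2) s x hx (by omega)

/-- if `y` vanishes at all nodes except `b` -/
theorem ddF_of_vanish {s : Finset κ} (x : κ → Ω) {y : κ → Ω} {b : κ} (hb : b ∈ s) (h0 : ∀ j ∈ s.erase b, y j = 0) :
    ddF s x y = y b / ∏ i ∈ s.erase b, (x b - x i) := by
  unfold ddF
  refine Finset.sum_eq_single_of_mem b hb fun j hj hjb => ?_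
  rw [h0 j (Finset.mem_erase.mpr ⟨hjb, hj⟩), zero_div]

theorem ddF_eq_zero_of_vanish {s : Finset κ} (x : κ → Ω) {y : κ → Ω} (h0 : ∀ j ∈ s, y j = 0) : ddF s x y = 0 := by
  unfold ddF
  exact Finset.sum_eq_zero fun j hj => by rw [h0 j hj, zero_div]

/-- the first difference quotient `y^{[a]}_j = (y_j - y_a)/(x_j - x_a)` shifts divided differences -/
theorem ddF_quot {s : Finset κ} {x : κ → Ω} (y : κ → Ω) {a : κ} (ha : a ∉ s) (hx : Set.InjOn x (insert a s))
    (hs : s.Nonempty) :
    ddF s x (fun j => (y j - y a) / (x j - x a)) = ddF (insert a s) x y := by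
  have hx' : Set.InjOn x ((insert a s : Finset κ) : Set κ) := by
    rw [Finset.coe_insert]; exact hx
  have hains : a ∈ insert a s := Finset.mem_insert_self a s
  have h1 := ddF_sub_mul (fun j => (y j - y a) / (x j - x a)) hx' hains
  rw [Finset.erase_insert ha] at h1
  rw [← h1]
  have h2 : ddF (insert a s) x (fun j => (x j - x a) * ((y j - y a) / (x j - x a)))
      = ddF (insert a s) x (fun j => y j + (-y a)) := by
    refine ddF_congr fun j hj => ?_
    by_cases hja : j = a
    · subst hja; simp
    · have hne : x j - x a ≠ 0 := sub_ne_zero.mpr fun h => hja (hx' hj hains h)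
      rw [mul_div_cancel₀ _ hne, sub_eq_add_neg]
  rw [h2, ddF_add, ddF_const hx' (by
    rw [Finset.card_insert_of_notMem ha]
    have := hs.card_pos
    omega), add_zero]

/-- **Leibniz rule** along an enumeration `l` of the nodes.
Proof: induction on `l`; `z_j = z_a + (x_j - x_a) z^{[a]}_j` for the head `a`, `ddF_sub_mul`, `ddF_quot`. -/
theorem ddF_mul_list (l : List κ) (hl : l.Nodup) (hne : l ≠ []) {x : κ → Ω} (hx : Set.InjOn x {j | j ∈ l})
    (y z : κ → Ω) :
    ddF l.toFinset x (fun j => y j * z j) =
      ∑ k ∈ Finset.range l.length, ddF (l.take (k + 1)).toFinset x z * ddF (l.drop k).toFinset x y := by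
  induction l generalizing z with
  | nil => exact absurd rfl hne
  | cons a l' ih =>
    by_cases hl' : l' = []
    · subst hl'
      simp [mul_comm]
    · have hal' : a ∉ l' := (List.nodup_cons.mp hl).1
      have hnd : l'.Nodup := (List.nodup_cons.mp hl).2
      have hxl' : Set.InjOn x {j | j ∈ l'} :=
        hx.mono fun j hj => List.mem_cons_of_mem a hj
      have hxF : Set.InjOn x (((a :: l').toFinset : Finset κ) : Set κ) := by
        refine hx.mono fun j hj => ?_
        simpa using hj
      have haF : a ∈ (a :: l').toFinset := by simp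
      have herase : (a :: l').toFinset.erase a = l'.toFinset := by
        rw [List.toFinset_cons, Finset.erase_insert (by simpa using hal')]
      set z' : κ → Ω := fun j => (z j - z a) / (x j - x a) with hz'
      have h1 : ddF (a :: l').toFinset x (fun j => y j * z j)
          = z a * ddF (a :: l').toFinset x y + ddF l'.toFinset x (fun j => y j * z' j) := by
        rw [← herase, ← ddF_sub_mul (fun j => y j * z' j) hxF haF, ← ddF_const_mul, ← ddF_add]
        refine ddF_congr fun j hj => ?_
        by_cases hja : j = a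
        · subst hja; simp [mul_comm]
        · have hne' : x j - x a ≠ 0 := sub_ne_zero.mpr fun h => hja (hxF hj haF h)
          simp only [hz']
          field_simp
          ring
      rw [h1, ih hnd hl' hxl' z', List.length_cons, Finset.sum_range_succ']
      have h0 : ddF (List.take (0 + 1) (a :: l')).toFinset x z
          * ddF (List.drop 0 (a :: l')).toFinset x y = z a * ddF (a :: l').toFinset x y := by
        simp
      rw [h0, add_comm]
      congr 1
      refine Finset.sum_congr rfl fun k _ => ?_
      rw [List.take_succ_cons, List.drop_succ_cons, List.toFinset_cons]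
      congr 1
      apply ddF_quot z
      · intro h
        exact hal' (List.mem_of_mem_take (List.mem_toFinset.mp h))
      · refine hx.mono fun j hj => ?_
        rcases hj with rfl | hj
        · exact List.mem_cons_self
        · exact List.mem_cons_of_mem a (List.mem_of_mem_take (List.mem_toFinset.mp hj))
      · obtain ⟨b, l'', rfl⟩ := List.exists_cons_of_ne_nil hl'
        exact ⟨b, by simp⟩

end Fermat.Agent.S17
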