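import Fermat.Agent.S17.Alg.Size
import Fermat.Agent.S17.Alg.DivDiff

/-!
# S17-ALG: abstract local charts and the core lemma (V-DD)

`LocalChart K 𝒪` abstracts the local ring `𝒪 = 𝒪_c` of a curve over `K` at a `K`-point `c`, with a uniformiser `τ`.
-/

set_option autoImplicit false

namespace Fermat.Agent.S17

/-- abstract local ring of a smooth curve at a rational point -/
structure LocalChart (K 𝒪 : Type*) [Field K] [CommRing 𝒪] [Algebra K 𝒪] where
  ev : 𝒪 →ₐ[K] K
  τ : 𝒪
  ev_τ : ev τ = 0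
  /-- `f ↦ (f - f(c))/τ` -/
  shift : 𝒪 → 𝒪
  eq_shift : ∀ f, f = algebraMap K 𝒪 (ev f) + τ * shift f
  isUnit_of_ev_ne_zero : ∀ f, ev f ≠ 0 → IsUnit f
  /-- `𝒪` is essentially of finite type -/
  gens : Finset 𝒪
  closure_gens : ∀ S : Subalgebra K 𝒪, (∀ y ∈ gens, y ∈ S) → (∀ u ∈ S, ∀ u', u * u' = 1 → u' ∈ S) → S = ⊤

namespace LocalChart

variable {K 𝒪 : Type*} [Field K] [CommRing 𝒪] [Algebra K 𝒪] (L : LocalChart K 𝒪)

/-- `n`-th Taylor coefficient with respect to `τ` -/
def taylor (n : ℕ) (f : 𝒪) : K := L.ev (L.shift^[n] f)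

@[simp] theorem taylor_zero (f : 𝒪) : L.taylor 0 f = L.ev f := rfl

theorem taylor_succ (n : ℕ) (f : 𝒪) : L.taylor (n + 1) f = L.taylor n (L.shift f) := rfl

variable {Ω : Type*} [Field Ω] [Algebra K Ω] (V : ResVal K Ω)

/-- an `(Ω, O)`-point of the chart: a local `K`-hom `𝒪 → O` -/
structure Pt where
  toHom : 𝒪 →ₐ[K] Ω
  mem : ∀ f, toHom f ∈ V.O
  res_eq : ∀ f, V.res ⟨toHom f, mem f⟩ = L.ev f

variable {L V}

/-- the coordinate `τ(χ)` -/
def Pt.x (χ : L.Pt V) : Ω := χ.toHom L.τ

theorem Pt.val_x_lt_one (χ : L.Pt V) : V.val χ.x < 1 := by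
  have h := χ.res_eq L.τ
  rw [L.ev_τ] at h
  exact (V.res_eq_zero_iff ⟨χ.toHom L.τ, χ.mem L.τ⟩).1 h

theorem Pt.val_eq_one_of_ev_ne_zero (χ : L.Pt V) {f : 𝒪} (hf : L.ev f ≠ 0) : V.val (χ.toHom f) = 1 := by
  refine (V.val_eq_one_iff ⟨χ.toHom f, χ.mem f⟩).2 ?_
  rw [χ.res_eq f]
  exact hf

/-- the constant point -/
def Pt.const (L : LocalChart K 𝒪) (V : ResVal K Ω) : L.Pt V where
  toHom := (Algebra.ofId K Ω).comp L.ev
  mem f := V.algebraMap_mem _
  res_eq f := V.res_algebraMap _

theorem Pt.const_x : (Pt.const L V).x = 0 := by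
  change (Algebra.ofId K Ω) (L.ev L.τ) = 0
  rw [L.ev_τ, map_zero]

/-- induction principle for `𝒪`, a reformulation of `closure_gens` -/
theorem Chart_induction (L : LocalChart K 𝒪) (P : 𝒪 → Prop) (halg : ∀ a, P (algebraMap K 𝒪 a))
    (hadd : ∀ f g, P f → P g → P (f + g)) (hmul : ∀ f g, P f → P g → P (f * g))
    (hinv : ∀ u u', P u → u * u' = 1 → P u') (hgens : ∀ y ∈ L.gens, P y) (f : 𝒪) : P f := by
  let S : Subalgebra K 𝒪 :=
    { carrier := {f | P f}
      mul_mem' := fun {f g} hf hg => hmul f g hf hg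
      add_mem' := fun {f g} hf hg => hadd f g hf hg
      algebraMap_mem' := halg }
  have hS : S = ⊤ := L.closure_gens S hgens (fun u hu u' h => hinv u u' hu h)
  have hf : f ∈ S := by rw [hS]; exact Algebra.mem_top
  exact hf

theorem Chart_val_le_one (χ : L.Pt V) (f : 𝒪) : V.val (χ.toHom f) ≤ 1 :=
  (V.val_le_one_iff _).2 (χ.mem f)

theorem Chart_val_eq_one_of_mul (χ : L.Pt V) {u u' : 𝒪} (h : u * u' = 1) : V.val (χ.toHom u) = 1 := by
  apply χ.val_eq_one_of_ev_ne_zero
  intro h0
  have h1 : L.ev u * L.ev u' = 1 := by rw [← map_mul, h, map_one]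
  rw [h0, zero_mul] at h1
  exact zero_ne_one h1

theorem Chart_res_congr {a b : Ω} (h : a = b) (ha : a ∈ V.O) (hb : b ∈ V.O) :
    V.res ⟨a, ha⟩ = V.res ⟨b, hb⟩ := by
  subst h; rfl

/-- Two points with the same coordinate are equal.
Proof: `M = max_{y ∈ gens} val(χ y - χ' y)`.  `{f | val(χ f - χ' f) ≤ M}` is a subalgebra closed under inverses, so it is `⊤`;
`y = y(c) + τ y₁` gives `χ y - χ' y = τ(χ)(χ y₁ - χ' y₁)`, so `M ≤ val(τ χ) M`, so `M = 0`. -/
theorem Pt.ext_of_x {χ χ' : L.Pt V} (h : χ.x = χ'.x) : χ.toHom = χ'.toHom := by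
  set M : V.O.ValueGroup := L.gens.sup (fun y => V.val (χ.toHom y - χ'.toHom y)) with hM
  have hall : ∀ f, V.val (χ.toHom f - χ'.toHom f) ≤ M := by
    refine Chart_induction L _ ?_ ?_ ?_ ?_ ?_
    · intro a
      rw [AlgHom.commutes, AlgHom.commutes, sub_self, map_zero]
      exact zero_le
    · intro f g hf hg
      have : χ.toHom (f + g) - χ'.toHom (f + g)
          = (χ.toHom f - χ'.toHom f) + (χ.toHom g - χ'.toHom g) := by
        rw [map_add, map_add]; ring
      rw [this]
      exact V.val.map_add_le hf hg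
    · intro f g hf hg
      have : χ.toHom (f * g) - χ'.toHom (f * g)
          = χ.toHom f * (χ.toHom g - χ'.toHom g) + (χ.toHom f - χ'.toHom f) * χ'.toHom g := by
        rw [map_mul, map_mul]; ring
      rw [this]
      refine V.val.map_add_le ?_ ?_
      · rw [map_mul]
        calc V.val (χ.toHom f) * V.val (χ.toHom g - χ'.toHom g) ≤ 1 * M :=
              mul_le_mul' (Chart_val_le_one χ f) hg
          _ = M := one_mul _
      · rw [map_mul]
        calc V.val (χ.toHom f - χ'.toHom f) * V.val (χ'.toHom g) ≤ M * 1 :=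
              mul_le_mul' hf (Chart_val_le_one χ' g)
          _ = M := mul_one _
    · intro u u' hu huu'
      have h1 : χ.toHom u * χ.toHom u' = 1 := by rw [← map_mul, huu', map_one]
      have h2 : χ'.toHom u * χ'.toHom u' = 1 := by rw [← map_mul, huu', map_one]
      have : χ.toHom u' - χ'.toHom u'
          = -(χ.toHom u' * χ'.toHom u' * (χ.toHom u - χ'.toHom u)) := by
        calc χ.toHom u' - χ'.toHom u'
            = χ.toHom u' * (χ'.toHom u * χ'.toHom u') - (χ.toHom u * χ.toHom u') * χ'.toHom u' := by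
              rw [h1, h2]; ring
          _ = _ := by ring
      rw [this, Valuation.map_neg, map_mul, map_mul]
      calc V.val (χ.toHom u') * V.val (χ'.toHom u') * V.val (χ.toHom u - χ'.toHom u)
          ≤ 1 * 1 * M := mul_le_mul' (mul_le_mul' (Chart_val_le_one χ u') (Chart_val_le_one χ' u')) hu
        _ = M := by rw [one_mul, one_mul]
    · intro y hy
      exact Finset.le_sup (f := fun y => V.val (χ.toHom y - χ'.toHom y)) hy
  have hle : M ≤ V.val χ.x * M := by
    refine Finset.sup_le ?_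
    intro y hy
    have : χ.toHom y - χ'.toHom y = χ.x * (χ.toHom (L.shift y) - χ'.toHom (L.shift y)) := by
      conv_lhs => rw [L.eq_shift y]
      rw [map_add, map_add, map_mul, map_mul, AlgHom.commutes, AlgHom.commutes]
      change _ + χ.x * _ - (_ + χ'.x * _) = _
      rw [← h]; ring
    rw [this, map_mul]
    exact mul_le_mul' le_rfl (hall _)
  have hM0 : M = 0 := by
    by_contra hne
    exact absurd hle (not_le.2 (mul_lt_of_lt_one_left (zero_lt_iff.2 hne) χ.val_x_lt_one))
  ext f
  have := hall f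
  rw [hM0, le_zero_iff, map_eq_zero, sub_eq_zero] at this
  exact this

section DD

variable {κ : Type*} [DecidableEq κ]

/-- divided difference of `f` at the points `χ j`, `j ∈ s` -/
noncomputable def Chart_dd (χ : κ → L.Pt V) (s : Finset κ) (f : 𝒪) : Ω :=
  ddF s (fun j => (χ j).x) (fun j => (χ j).toHom f)

theorem Chart_dd_add (χ : κ → L.Pt V) (s : Finset κ) (f g : 𝒪) :
    Chart_dd χ s (f + g) = Chart_dd χ s f + Chart_dd χ s g := by
  unfold Chart_dd
  rw [← ddF_add]
  exact ddF_congr (fun j _ => map_add _ _ _)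

theorem Chart_dd_algebraMap (χ : κ → L.Pt V) {s : Finset κ}
    (hinj : Set.InjOn (fun j => (χ j).x) s) (hs : 2 ≤ s.card) (a : K) :
    Chart_dd χ s (algebraMap K 𝒪 a) = 0 := by
  unfold Chart_dd
  rw [← ddF_const hinj hs (algebraMap K Ω a)]
  exact ddF_congr (fun j _ => (χ j).toHom.commutes a)

theorem Chart_dd_singleton (χ : κ → L.Pt V) (j : κ) (f : 𝒪) :
    Chart_dd χ {j} f = (χ j).toHom f :=
  ddF_singleton _ _ _

theorem Chart_dd_shift (χ : κ → L.Pt V) {s : Finset κ}
    (hinj : Set.InjOn (fun j => (χ j).x) s) (hs : 2 ≤ s.card) {a : κ} (ha : a ∈ s) (f : 𝒪) :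
    Chart_dd χ s f = (χ a).x * Chart_dd χ s (L.shift f) + Chart_dd χ (s.erase a) (L.shift f) := by
  conv_lhs => rw [L.eq_shift f]
  rw [Chart_dd_add, Chart_dd_algebraMap χ hinj hs, zero_add]
  unfold Chart_dd
  rw [← ddF_self_mul _ hinj ha]
  exact ddF_congr (fun j _ => map_mul _ _ _)

theorem Chart_dd_mul (χ : κ → L.Pt V) (l : List κ) (hl : l.Nodup) (hne : l ≠ [])
    (hinj : Set.InjOn (fun j => (χ j).x) {j | j ∈ l}) (f g : 𝒪) :
    Chart_dd χ l.toFinset (f * g) = ∑ k ∈ Finset.range l.length,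
      Chart_dd χ (l.take (k + 1)).toFinset g * Chart_dd χ (l.drop k).toFinset f := by
  unfold Chart_dd
  rw [← ddF_mul_list l hl hne hinj]
  exact ddF_congr (fun j _ => map_mul _ _ _)

/-- the closure step of (V-DD): a bound `M ≥ 1` for the generators is a bound for all of `𝒪` -/
theorem Chart_dd_bound (χ : κ → L.Pt V) (s : Finset κ) (hs : 2 ≤ s.card)
    (hinj : Set.InjOn (fun j => (χ j).x) s)
    (IH : ∀ t ⊆ s, t.card < s.card → t.Nonempty → ∀ f, V.val (Chart_dd χ t f) ≤ 1)
    (M : V.O.ValueGroup) (hM : 1 ≤ M) (hgens : ∀ y ∈ L.gens, V.val (Chart_dd χ s y) ≤ M) (f : 𝒪) :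
    V.val (Chart_dd χ s f) ≤ M := by
  have hl : s.toList.Nodup := s.nodup_toList
  have hlen : s.toList.length = s.card := s.length_toList
  have hne : s.toList ≠ [] := by
    intro h0
    rw [h0] at hlen
    simp only [List.length_nil] at hlen
    omega
  have hinj' : Set.InjOn (fun j => (χ j).x) {j | j ∈ s.toList} := by
    intro a ha b hb hab
    exact hinj (Finset.mem_toList.1 ha) (Finset.mem_toList.1 hb) hab
  have hmul := Chart_dd_mul χ s.toList hl hne hinj'
  rw [Finset.toList_toFinset, hlen] at hmul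
  -- the pieces
  have hTsub : ∀ k, (s.toList.take (k + 1)).toFinset ⊆ s := by
    intro k j hj
    exact Finset.mem_toList.1 (List.mem_of_mem_take (List.mem_toFinset.1 hj))
  have hUsub : ∀ k, (s.toList.drop k).toFinset ⊆ s := by
    intro k j hj
    exact Finset.mem_toList.1 (List.mem_of_mem_drop (List.mem_toFinset.1 hj))
  have hTcard : ∀ k, k < s.card → (s.toList.take (k + 1)).toFinset.card = k + 1 := by
    intro k hk
    rw [List.toFinset_card_of_nodup (hl.sublist (List.take_sublist _ _)), List.length_take, hlen]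
    omega
  have hUcard : ∀ k, (s.toList.drop k).toFinset.card = s.card - k := by
    intro k
    rw [List.toFinset_card_of_nodup (hl.sublist (List.drop_sublist _ _)), List.length_drop, hlen]
  have hle : ∀ g, V.val (Chart_dd χ s g) ≤ M → ∀ t ⊆ s, t.Nonempty → V.val (Chart_dd χ t g) ≤ M := by
    intro g hg t ht htne
    by_cases hc : t.card < s.card
    · exact (IH t ht hc htne g).trans hM
    · rw [Finset.eq_of_subset_of_card_le ht (not_lt.1 hc)]
      exact hg
  have hterm1 : ∀ g g', V.val (Chart_dd χ s g) ≤ M → ∀ k, k + 1 < s.card →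
      V.val (Chart_dd χ (s.toList.take (k + 1)).toFinset g' * Chart_dd χ (s.toList.drop k).toFinset g)
        ≤ M := by
    intro g g' hg k hk
    rw [map_mul]
    have h1 : V.val (Chart_dd χ (s.toList.take (k + 1)).toFinset g') ≤ 1 := by
      refine IH _ (hTsub k) ?_ ?_ g'
      · rw [hTcard k (by omega)]; exact hk
      · rw [← Finset.card_pos, hTcard k (by omega)]; omega
    have h2 : V.val (Chart_dd χ (s.toList.drop k).toFinset g) ≤ M := by
      refine hle g hg _ (hUsub k) ?_
      rw [← Finset.card_pos, hUcard k]; omega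
    calc _ ≤ 1 * M := mul_le_mul' h1 h2
      _ = M := one_mul _
  obtain ⟨m, hm⟩ : ∃ m, s.card = m + 1 := ⟨s.card - 1, by omega⟩
  have hTm : (s.toList.take (m + 1)).toFinset = s := by
    rw [List.take_of_length_le (by omega), Finset.toList_toFinset]
  obtain ⟨b, hb⟩ : ∃ b, (s.toList.drop m).toFinset = {b} := by
    apply Finset.card_eq_one.1
    rw [hUcard m]; omega
  refine Chart_induction L (fun f => V.val (Chart_dd χ s f) ≤ M) ?_ ?_ ?_ ?_ hgens f
  · intro a
    rw [Chart_dd_algebraMap χ hinj hs, map_zero]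
    exact zero_le
  · intro f g hf hg
    rw [Chart_dd_add]
    exact V.val.map_add_le hf hg
  · intro f g hf hg
    rw [hmul f g]
    refine V.val.map_sum_le ?_
    intro k hk
    have hk' : k < s.card := Finset.mem_range.1 hk
    by_cases hk1 : k + 1 < s.card
    · exact hterm1 f g hf k hk1
    · have hkm : k = m := by omega
      subst hkm
      rw [hTm, hb, Chart_dd_singleton, map_mul]
      calc _ ≤ M * 1 := mul_le_mul' hg (Chart_val_le_one _ _)
        _ = M := mul_one _
  · intro u u' hu huu'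
    have h0 : Chart_dd χ s (u * u') = 0 := by
      rw [huu', ← map_one (algebraMap K 𝒪)]
      exact Chart_dd_algebraMap χ hinj hs 1
    rw [hmul u u', hm, Finset.sum_range_succ, hTm, hb, Chart_dd_singleton] at h0
    have h1 : V.val (Chart_dd χ s u') = V.val (Chart_dd χ s u' * (χ b).toHom u) := by
      rw [map_mul, Chart_val_eq_one_of_mul (χ b) huu', mul_one]
    rw [h1, eq_neg_of_add_eq_zero_right h0, Valuation.map_neg]
    refine V.val.map_sum_le ?_
    intro k hk
    exact hterm1 u u' hu k (by have := Finset.mem_range.1 hk; omega)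

/-- the inductive step of (V-DD), integrality -/
theorem Chart_dd_step (χ : κ → L.Pt V) (s : Finset κ) (hs : 2 ≤ s.card)
    (hinj : Set.InjOn (fun j => (χ j).x) s)
    (IH : ∀ t ⊆ s, t.card < s.card → t.Nonempty → ∀ f, V.val (Chart_dd χ t f) ≤ 1) (f : 𝒪) :
    V.val (Chart_dd χ s f) ≤ 1 := by
  set M₀ : V.O.ValueGroup := L.gens.sup (fun y => V.val (Chart_dd χ s y)) with hM₀
  have hgens : ∀ y ∈ L.gens, V.val (Chart_dd χ s y) ≤ M₀ := fun y hy =>
    Finset.le_sup (f := fun y => V.val (Chart_dd χ s y)) hy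
  by_cases h1 : M₀ ≤ 1
  · exact Chart_dd_bound χ s hs hinj IH 1 le_rfl (fun y hy => (hgens y hy).trans h1) f
  · exfalso
    have h1' : 1 < M₀ := not_le.1 h1
    have hall := Chart_dd_bound χ s hs hinj IH M₀ h1'.le hgens
    obtain ⟨a, ha⟩ : s.Nonempty := by rw [← Finset.card_pos]; omega
    have hlt : V.val (χ a).x * M₀ < M₀ :=
      mul_lt_of_lt_one_left (lt_trans zero_lt_one h1') (χ a).val_x_lt_one
    have hle : M₀ ≤ max (V.val (χ a).x * M₀) 1 := by
      refine Finset.sup_le ?_
      intro y hy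
      rw [Chart_dd_shift χ hinj hs ha y]
      refine (V.val.map_add _ _).trans (max_le_max ?_ ?_)
      · rw [map_mul]
        exact mul_le_mul' le_rfl (hall _)
      · refine IH _ (Finset.erase_subset _ _) ?_ ?_ _
        · exact Finset.card_erase_lt_of_mem ha
        · rw [← Finset.card_pos, Finset.card_erase_of_mem ha]; omega
    exact absurd hle (not_le.2 (max_lt hlt h1'))

end DD

/-- **(V-DD)**.  Divided differences of `f ∈ 𝒪` at points with distinct coordinates are integral, with residue the Taylor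
coefficient.  Proof by strong induction on `s.card` (see BLUEPRINT §1): fix an enumeration of `s`;
let `M` be the max of `val Δ_{s'} y` over `y ∈ gens` and over all subsets `s' ⊆ s₀` of the given cardinality
(`s₀` a fixed ambient finite set).  By the Leibniz rule `ddF_mul_list` and the induction hypothesis
`{f | ∀ s', val Δ_{s'} f ≤ max 1 M}` is a subalgebra closed under inverses, hence `⊤`.
`ddF_self_mul` applied to `y = y(c) + τ y₁` gives `Δ_{s'} y = τ(χ_a) Δ_{s'} y₁ + Δ_{s'∖a} y₁`, so `M ≤ max (val(τ χ_a) · max 1 M) 1`, so `M ≤ 1`.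
The residue: same formula and induction. -/
theorem ddF_mem {κ : Type*} [DecidableEq κ] (s : Finset κ) (hs : s.Nonempty) (χ : κ → L.Pt V)
    (hinj : Set.InjOn (fun j => (χ j).x) s) (f : 𝒪) :
    ∃ h : ddF s (fun j => (χ j).x) (fun j => (χ j).toHom f) ∈ V.O,
      V.res ⟨_, h⟩ = L.taylor (s.card - 1) f := by
  induction s using Finset.strongInductionOn generalizing f with
  | _ s IH =>
    by_cases hs2 : 2 ≤ s.card
    · have IH' : ∀ t ⊆ s, t.card < s.card → t.Nonempty → ∀ f, V.val (Chart_dd χ t f) ≤ 1 := by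
        intro t ht hc htne f
        have hss : t ⊂ s := Finset.ssubset_iff_subset_ne.2 ⟨ht, fun h => by rw [h] at hc; exact lt_irrefl _ hc⟩
        obtain ⟨h, -⟩ := IH t hss htne (hinj.mono (Finset.coe_subset.2 ht)) f
        exact (V.val_le_one_iff _).2 h
      have hmem : ∀ f, Chart_dd χ s f ∈ V.O := fun f =>
        (V.val_le_one_iff _).1 (Chart_dd_step χ s hs2 hinj IH' f)
      refine ⟨hmem f, ?_⟩
      obtain ⟨a, ha⟩ := hs
      have hene : (s.erase a).Nonempty := by
        rw [← Finset.card_pos, Finset.card_erase_of_mem ha]; omega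
      obtain ⟨h2, hres2⟩ := IH (s.erase a) (Finset.erase_ssubset ha) hene
        (hinj.mono (Finset.coe_subset.2 (Finset.erase_subset _ _))) (L.shift f)
      have hxa : V.res ⟨(χ a).x, (χ a).mem L.τ⟩ = 0 := by
        have := (χ a).res_eq L.τ
        rw [L.ev_τ] at this
        exact this
      have hsplit : (⟨Chart_dd χ s f, hmem f⟩ : V.O)
          = ⟨(χ a).x, (χ a).mem L.τ⟩ * ⟨Chart_dd χ s (L.shift f), hmem _⟩
            + ⟨Chart_dd χ (s.erase a) (L.shift f), h2⟩ :=
        Subtype.ext (Chart_dd_shift χ hinj hs2 ha f)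
      change V.res ⟨Chart_dd χ s f, hmem f⟩ = _
      rw [hsplit, map_add, map_mul, hxa, zero_mul, zero_add]
      change V.res ⟨ddF (s.erase a) (fun j => (χ j).x) (fun j => (χ j).toHom (L.shift f)), h2⟩ = _
      rw [hres2, Finset.card_erase_of_mem ha, ← L.taylor_succ]
      congr 1
      omega
    · have hc1 : s.card = 1 := by
        have := Finset.card_pos.2 hs
        omega
      obtain ⟨j, rfl⟩ := Finset.card_eq_one.1 hc1
      have hEq : ddF {j} (fun j => (χ j).x) (fun j => (χ j).toHom f) = (χ j).toHom f :=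
        ddF_singleton _ _ _
      have hmem : ddF {j} (fun j => (χ j).x) (fun j => (χ j).toHom f) ∈ V.O := by
        rw [hEq]; exact (χ j).mem f
      refine ⟨hmem, ?_⟩
      rw [Chart_res_congr hEq hmem ((χ j).mem f), (χ j).res_eq f]
      rfl

/-- divided differences of an integral linear combination -/
theorem Chart_dd_lincomb {κ ι : Type*} [DecidableEq κ] (t : Finset κ) (ht : t.Nonempty) (χ : κ → L.Pt V)
    (hinj : Set.InjOn (fun j => (χ j).x) t) (I : Finset ι) (c : ι → V.O) (h : ι → 𝒪) :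
    ∃ q : V.O, (q : Ω) = ddF t (fun j => (χ j).x) (fun j => ∑ i ∈ I, (c i : Ω) * (χ j).toHom (h i)) ∧
      V.res q = ∑ i ∈ I, V.res (c i) * L.taylor (t.card - 1) (h i) := by
  have key := fun i => ddF_mem t ht χ hinj (h i)
  choose hm hres using key
  refine ⟨∑ i ∈ I, c i * ⟨_, hm i⟩, ?_, ?_⟩
  · rw [ddF_sum]
    push_cast
    refine Finset.sum_congr rfl (fun i _ => ?_)
    rw [ddF_const_mul]
  · rw [map_sum]
    refine Finset.sum_congr rfl (fun i _ => ?_)
    rw [map_mul, hres i]

/-- **(V-Newton)**.  `S(χ) = ∑ c_i χ(h_i)` with integral coefficients, vanishing at the points `χ_j`, `j ∈ s`. -/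
theorem newton {κ ι : Type*} [DecidableEq κ] (s : Finset κ) (χ : κ → L.Pt V)
    (hinj : Set.InjOn (fun j => (χ j).x) s) (I : Finset ι) (c : ι → V.O) (h : ι → 𝒪)
    (hz : ∀ j ∈ s, ∑ i ∈ I, (c i : Ω) * (χ j).toHom (h i) = 0) :
    (∀ n < s.card, ∑ i ∈ I, V.res (c i) * L.taylor n (h i) = 0) ∧
    ∀ ρ : L.Pt V, (∀ j ∈ s, ρ.x ≠ (χ j).x) →
      ∃ q : V.O, ∑ i ∈ I, (c i : Ω) * ρ.toHom (h i) = q * ∏ j ∈ s, (ρ.x - (χ j).x) ∧
        V.res q = ∑ i ∈ I, V.res (c i) * L.taylor s.card (h i) := by
  constructor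
  · intro n hn
    obtain ⟨t, hts, htc⟩ := Finset.exists_subset_card_eq (Nat.succ_le_of_lt hn)
    have htne : t.Nonempty := by rw [← Finset.card_pos, htc]; omega
    obtain ⟨q, hq, hres⟩ := Chart_dd_lincomb t htne χ (hinj.mono (Finset.coe_subset.2 hts)) I c h
    rw [ddF_eq_zero_of_vanish _ (fun j hj => hz j (hts hj))] at hq
    have hq0 : q = 0 := Subtype.ext hq
    rw [hq0, map_zero, htc] at hres
    exact hres.symm
  · intro ρ hρ
    let χ' : Option κ → L.Pt V := fun o => o.elim ρ χ
    have hinj' : Set.InjOn (fun o => (χ' o).x) (Finset.insertNone s : Finset (Option κ)) := by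
      intro o ho o' ho' hoo'
      cases o with
      | none =>
        cases o' with
        | none => rfl
        | some j' =>
          exact absurd hoo' (hρ j' (Finset.some_mem_insertNone.1 (Finset.mem_coe.1 ho')))
      | some j =>
        cases o' with
        | none =>
          exact absurd hoo'.symm (hρ j (Finset.some_mem_insertNone.1 (Finset.mem_coe.1 ho)))
        | some j' =>
          exact congrArg some (hinj (Finset.some_mem_insertNone.1 (Finset.mem_coe.1 ho))
            (Finset.some_mem_insertNone.1 (Finset.mem_coe.1 ho')) hoo')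
    obtain ⟨q, hq, hres⟩ := Chart_dd_lincomb (Finset.insertNone s) ⟨none, Finset.none_mem_insertNone⟩
      χ' hinj' I c h
    refine ⟨q, ?_, ?_⟩
    · have hvan : ∀ o ∈ (Finset.insertNone s).erase none,
          ∑ i ∈ I, (c i : Ω) * (χ' o).toHom (h i) = 0 := by
        intro o ho
        rw [Finset.mem_erase] at ho
        cases o with
        | none => exact absurd rfl ho.1
        | some j => exact hz j (Finset.some_mem_insertNone.1 ho.2)
      rw [ddF_of_vanish _ Finset.none_mem_insertNone hvan, ← Finset.map_some_eraseNone,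
        Finset.eraseNone_insertNone, Finset.prod_map] at hq
      have hprod : ∏ j ∈ s, (ρ.x - (χ j).x) ≠ 0 :=
        Finset.prod_ne_zero_iff.2 (fun j hj => sub_ne_zero.2 (hρ j hj))
      rw [hq]
      exact (div_mul_cancel₀ _ hprod).symm
    · rw [hres, Finset.card_insertNone, Nat.add_sub_cancel]

/-- the first divided difference -/
theorem Chart_dd_two (χ χ' : L.Pt V) (hx : χ.x ≠ χ'.x) (f : 𝒪) :
    ∃ q : V.O, χ.toHom f - χ'.toHom f = q * (χ.x - χ'.x) ∧ V.res q = L.taylor 1 f := by
  let X : Bool → L.Pt V := fun b => cond b χ χ'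
  have hinj : Set.InjOn (fun b => (X b).x) ((Finset.univ : Finset Bool) : Set Bool) := by
    intro b _ b' _ hbb'
    cases b <;> cases b'
    · rfl
    · exact absurd hbb'.symm hx
    · exact absurd hbb' hx
    · rfl
  obtain ⟨hq, hres⟩ := ddF_mem Finset.univ ⟨true, Finset.mem_univ _⟩ X hinj f
  refine ⟨⟨_, hq⟩, ?_, hres⟩
  have h := ddF_erase_sub (fun b => (X b).toHom f) hinj (Finset.mem_univ false) (Finset.mem_univ true)
    (by decide)
  have e1 : (Finset.univ : Finset Bool).erase false = {true} := by decide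
  have e2 : (Finset.univ : Finset Bool).erase true = {false} := by decide
  rw [e1, e2, ddF_singleton, ddF_singleton] at h
  rw [mul_comm]
  exact h.symm

/-- first order case: `val(χ f - χ' f) ≤ val(τχ - τχ')`, equality if the first Taylor coefficient is nonzero. -/
theorem val_sub_le (χ χ' : L.Pt V) (f : 𝒪) : V.val (χ.toHom f - χ'.toHom f) ≤ V.val (χ.x - χ'.x) := by
  by_cases hx : χ.x = χ'.x
  · rw [Pt.ext_of_x hx, sub_self, map_zero]
    exact zero_le
  · obtain ⟨q, hq, -⟩ := Chart_dd_two χ χ' hx f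
    rw [hq, map_mul]
    calc V.val (q : Ω) * V.val (χ.x - χ'.x) ≤ 1 * V.val (χ.x - χ'.x) :=
          mul_le_mul' ((V.val_le_one_iff _).2 q.2) le_rfl
      _ = _ := one_mul _

theorem val_sub_eq (χ χ' : L.Pt V) {f : 𝒪} (hf : L.taylor 1 f ≠ 0) :
    V.val (χ.toHom f - χ'.toHom f) = V.val (χ.x - χ'.x) := by
  by_cases hx : χ.x = χ'.x
  · rw [Pt.ext_of_x hx, hx, sub_self, sub_self]
  · obtain ⟨q, hq, hres⟩ := Chart_dd_two χ χ' hx f
    rw [hq, map_mul, (V.val_eq_one_iff q).2 (by rw [hres]; exact hf), one_mul]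

end LocalChart

end Fermat.Agent.S17
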