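import Fermat.Agent.S17.Alg.ResVal

/-!
# S17-ALG: sizes of finite families (w.r.t. a valuation / an absolute value)

A *family* is a `Finset`; products of families are pointwise products of finsets
(`open scoped Pointwise`), and `size` is multiplicative.
-/

set_option autoImplicit false

open scoped Pointwise NNReal

namespace Fermat.Agent.S17

/-- `sup` of a multiplicative map over a pointwise product. -/
theorem Size_sup_mul {M Γ : Type*} [Mul M] [DecidableEq M] [LinearOrderedCommGroupWithZero Γ]
    (f : M → Γ) (hf : ∀ x y, f (x * y) = f x * f y) (s t : Finset M) :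
    (s * t).sup f = s.sup f * t.sup f := by
  apply le_antisymm
  · rw [Finset.sup_le_iff]
    intro z hz
    obtain ⟨x, hx, y, hy, rfl⟩ := Finset.mem_mul.1 hz
    rw [hf]
    exact mul_le_mul' (Finset.le_sup hx) (Finset.le_sup hy)
  · rcases s.eq_empty_or_nonempty with rfl | hs
    · simp [bot_eq_zero]
    rcases t.eq_empty_or_nonempty with rfl | ht
    · simp [bot_eq_zero]
    obtain ⟨x, hx, hx'⟩ := Finset.exists_mem_eq_sup s hs f
    obtain ⟨y, hy, hy'⟩ := Finset.exists_mem_eq_sup t ht f
    rw [hx', hy', ← hf]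
    exact Finset.le_sup (Finset.mul_mem_mul hx hy)

section Val

variable {K Ω : Type*} [Field K] [Field Ω] [Algebra K Ω] (V : ResVal K Ω)

/-- `max` of the valuations of the members of a finite family (`0` for the empty family). -/
noncomputable def ResVal.vsize (s : Finset Ω) : V.O.ValueGroup := s.sup V.val

theorem ResVal.vsize_le_iff (s : Finset Ω) (γ : V.O.ValueGroup) :
    V.vsize s ≤ γ ↔ ∀ x ∈ s, V.val x ≤ γ := by
  exact Finset.sup_le_iff

theorem ResVal.le_vsize {s : Finset Ω} {x : Ω} (hx : x ∈ s) : V.val x ≤ V.vsize s := by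
  exact Finset.le_sup (f := V.val) hx

theorem ResVal.exists_vsize_eq {s : Finset Ω} (hs : s.Nonempty) : ∃ x ∈ s, V.vsize s = V.val x := by
  exact Finset.exists_mem_eq_sup s hs V.val

@[simp] theorem ResVal.vsize_singleton (x : Ω) : V.vsize {x} = V.val x := by
  exact Finset.sup_singleton

@[simp] theorem ResVal.vsize_empty : V.vsize ∅ = 0 := by
  exact Finset.sup_empty.trans bot_eq_zero

theorem ResVal.vsize_eq_zero_iff (s : Finset Ω) : V.vsize s = 0 ↔ ∀ x ∈ s, x = 0 := by
  rw [← bot_eq_zero, ResVal.vsize, Finset.sup_eq_bot_iff]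
  refine forall₂_congr fun x _ => ?_
  rw [bot_eq_zero, map_eq_zero]

theorem ResVal.vsize_mul [DecidableEq Ω] (s t : Finset Ω) : V.vsize (s * t) = V.vsize s * V.vsize t := by
  exact Size_sup_mul V.val (fun x y => map_mul _ x y) s t

theorem ResVal.vsize_one [DecidableEq Ω] : V.vsize (1 : Finset Ω) = 1 := by
  rw [← Finset.singleton_one, V.vsize_singleton, map_one]

theorem ResVal.vsize_prod [DecidableEq Ω] {κ : Type*} (I : Finset κ) (s : κ → Finset Ω) :
    V.vsize (∏ j ∈ I, s j) = ∏ j ∈ I, V.vsize (s j) := by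
  classical
  induction I using Finset.induction_on with
  | empty => rw [Finset.prod_empty, Finset.prod_empty, V.vsize_one]
  | insert j I hj ih => rw [Finset.prod_insert hj, Finset.prod_insert hj, V.vsize_mul, ih]

theorem ResVal.vsize_pow [DecidableEq Ω] (s : Finset Ω) (n : ℕ) : V.vsize (s ^ n) = V.vsize s ^ n := by
  induction n with
  | zero => rw [pow_zero, pow_zero, V.vsize_one]
  | succ n ih => rw [pow_succ, pow_succ, V.vsize_mul, ih]

theorem ResVal.vsize_image {κ : Type*} [DecidableEq Ω] (I : Finset κ) (u : κ → Ω) (γ : V.O.ValueGroup) :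
    V.vsize (I.image u) ≤ γ ↔ ∀ i ∈ I, V.val (u i) ≤ γ := by
  rw [V.vsize_le_iff, Finset.forall_mem_image]

/-- A `K`-linear combination is bounded by the size. -/
theorem ResVal.val_sum_smul_le {κ : Type*} [DecidableEq Ω] (I : Finset κ) (c : κ → K) (u : κ → Ω) :
    V.val (∑ i ∈ I, c i • u i) ≤ V.vsize (I.image u) := by
  refine Valuation.map_sum_le _ fun i hi => ?_
  rw [Algebra.smul_def, map_mul]
  calc V.val (algebraMap K Ω (c i)) * V.val (u i) ≤ 1 * V.val (u i) :=
        mul_le_mul' (V.val_algebraMap_le (c i)) le_rfl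
    _ = V.val (u i) := one_mul _
    _ ≤ V.vsize (I.image u) := V.le_vsize (Finset.mem_image_of_mem u hi)

/-- normalisation: a family which is not identically zero can be scaled to have size one. -/
theorem ResVal.exists_scale {s : Finset Ω} (hs : ∃ x ∈ s, x ≠ 0) :
    ∃ c : Ω, c ≠ 0 ∧ V.val c = V.vsize s ∧ ∀ x ∈ s, x / c ∈ V.O := by
  obtain ⟨x₀, hx₀, hx₀0⟩ := hs
  obtain ⟨c, hc, hcs⟩ := V.exists_vsize_eq ⟨x₀, hx₀⟩
  have hc0 : c ≠ 0 := by
    rintro rfl
    rw [map_zero] at hcs
    exact hx₀0 ((V.vsize_eq_zero_iff s).1 hcs x₀ hx₀)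
  refine ⟨c, hc0, hcs.symm, fun x hx => ?_⟩
  rw [← V.val_le_one_iff, map_div₀]
  have hpos : 0 < V.val c := zero_lt_iff.2 ((map_ne_zero _).2 hc0)
  rw [div_le_one₀ hpos, ← hcs]
  exact V.le_vsize hx

end Val

section Abs

variable {K : Type*} [Field K] (a : AbsoluteValue K ℝ)

/-- `max` of the absolute values of the members of a finite family (`0` for the empty family). -/
noncomputable def asize (s : Finset K) : ℝ := ((s.sup fun x => (⟨a x, a.nonneg x⟩ : ℝ≥0) : ℝ≥0) : ℝ)

theorem asize_nonneg (s : Finset K) : 0 ≤ asize a s := by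
  exact NNReal.coe_nonneg _

theorem asize_le_iff (s : Finset K) {B : ℝ} (hB : 0 ≤ B) : asize a s ≤ B ↔ ∀ x ∈ s, a x ≤ B := by
  have h1 : asize a s ≤ B ↔ (s.sup fun x => (⟨a x, a.nonneg x⟩ : ℝ≥0)) ≤ (⟨B, hB⟩ : ℝ≥0) := Iff.rfl
  rw [h1, Finset.sup_le_iff]
  exact Iff.rfl

theorem le_asize {s : Finset K} {x : K} (hx : x ∈ s) : a x ≤ asize a s := by
  have := Finset.le_sup (f := fun x => (⟨a x, a.nonneg x⟩ : ℝ≥0)) hx
  exact this

theorem exists_asize_eq {s : Finset K} (hs : s.Nonempty) : ∃ x ∈ s, asize a s = a x := by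
  obtain ⟨x, hx, h⟩ := Finset.exists_mem_eq_sup s hs (fun x => (⟨a x, a.nonneg x⟩ : ℝ≥0))
  exact ⟨x, hx, congrArg NNReal.toReal h⟩

@[simp] theorem asize_singleton (x : K) : asize a {x} = a x := by
  exact congrArg NNReal.toReal
    (Finset.sup_singleton (f := fun x => (⟨a x, a.nonneg x⟩ : ℝ≥0)) (b := x))

@[simp] theorem asize_empty : asize a ∅ = 0 := by
  exact congrArg NNReal.toReal (Finset.sup_empty (f := fun x => (⟨a x, a.nonneg x⟩ : ℝ≥0)))

theorem asize_pos_iff (s : Finset K) : 0 < asize a s ↔ ∃ x ∈ s, x ≠ 0 := by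
  constructor
  · intro h
    by_contra hcon
    push Not at hcon
    have : asize a s ≤ 0 := (asize_le_iff a s le_rfl).2 fun x hx => by rw [hcon x hx, map_zero]
    exact absurd h (not_lt.2 this)
  · rintro ⟨x, hx, hx0⟩
    exact lt_of_lt_of_le (a.pos hx0) (le_asize a hx)

theorem asize_mul [DecidableEq K] (s t : Finset K) : asize a (s * t) = asize a s * asize a t := by
  have := Size_sup_mul (fun x => (⟨a x, a.nonneg x⟩ : ℝ≥0))
    (fun x y => NNReal.eq (map_mul a x y)) s t
  exact (congrArg NNReal.toReal this).trans (NNReal.coe_mul _ _)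

theorem asize_one [DecidableEq K] : asize a (1 : Finset K) = 1 := by
  rw [← Finset.singleton_one, asize_singleton, map_one]

theorem asize_prod [DecidableEq K] {κ : Type*} (I : Finset κ) (s : κ → Finset K) :
    asize a (∏ j ∈ I, s j) = ∏ j ∈ I, asize a (s j) := by
  classical
  induction I using Finset.induction_on with
  | empty => rw [Finset.prod_empty, Finset.prod_empty, asize_one]
  | insert j I hj ih => rw [Finset.prod_insert hj, Finset.prod_insert hj, asize_mul, ih]

theorem asize_pow [DecidableEq K] (s : Finset K) (n : ℕ) : asize a (s ^ n) = asize a s ^ n := by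
  induction n with
  | zero => rw [pow_zero, pow_zero, asize_one]
  | succ n ih => rw [pow_succ, pow_succ, asize_mul, ih]

theorem asize_mono {s t : Finset K} (h : s ⊆ t) : asize a s ≤ asize a t := by
  exact (asize_le_iff a s (asize_nonneg a t)).2 fun x hx => le_asize a (h hx)

end Abs

section Image

/-- images of pointwise products under ring homs (to be used with `φ` and with evaluation at `t`). -/
theorem image_prod_ringHom {R S κ : Type*} [CommRing R] [CommRing S] [DecidableEq R] [DecidableEq S]
    (φ : R →+* S) (I : Finset κ) (s : κ → Finset R) :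
    (∏ j ∈ I, s j).image φ = ∏ j ∈ I, (s j).image φ := by
  classical
  induction I using Finset.induction_on with
  | empty => simp [← Finset.singleton_one]
  | insert j I hj ih =>
    rw [Finset.prod_insert hj, Finset.prod_insert hj, Finset.image_mul, ih]

theorem image_mul_ringHom {R S : Type*} [CommRing R] [CommRing S] [DecidableEq R] [DecidableEq S]
    (φ : R →+* S) (s t : Finset R) : (s * t).image φ = s.image φ * t.image φ := by
  exact Finset.image_mul φ

theorem image_pow_ringHom {R S : Type*} [CommRing R] [CommRing S] [DecidableEq R] [DecidableEq S]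
    (φ : R →+* S) (s : Finset R) (n : ℕ) : (s ^ n).image φ = s.image φ ^ n := by
  induction n with
  | zero => simp [← Finset.singleton_one]
  | succ n ih => rw [pow_succ, pow_succ, Finset.image_mul, ih]

end Image

end Fermat.Agent.S17
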