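import Fermat.Agent.S17.Alg.Transfer
import Fermat.Agent.S17.Alg.Size

/-!
# S17-ALG: from homogeneous integral equations to estimates for absolute values
-/

set_option autoImplicit false

open scoped Pointwise
open MvPolynomial

namespace Fermat.Agent.S17

/-- A family of absolute values on `K`: almost all nonarchimedean, every element is `≤ 1` at almost all. -/
structure AbsFam (K : Type*) [Field K] where
  ι : Type
  abv : ι → AbsoluteValue K ℝ
  finite_arch : {p | ¬ IsNonarchimedean (abv p : K → ℝ)}.Finite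
  finite_one_lt : ∀ x : K, {p | 1 < abv p x}.Finite

/-- A system of constants `C_p ≥ 1`, `= 1` for almost all `p`. -/
def AbsFam.Good {K : Type*} [Field K] (𝔸 : AbsFam K) (C : 𝔸.ι → ℝ) : Prop :=
  (∀ p, 1 ≤ C p) ∧ {p | C p ≠ 1}.Finite

namespace AbsFam

variable {K : Type*} [Field K] (𝔸 : AbsFam K)

theorem Good.mul {C D : 𝔸.ι → ℝ} (hC : 𝔸.Good C) (hD : 𝔸.Good D) : 𝔸.Good (fun p => C p * D p) := by
  refine ⟨fun p => one_le_mul_of_one_le_of_one_le (hC.1 p) (hD.1 p),
    (hC.2.union hD.2).subset fun p hp => ?_⟩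
  by_contra hcon
  simp only [Set.mem_union, Set.mem_ofPred_eq, not_or, not_not] at hcon
  exact hp (by simp [hcon.1, hcon.2])

theorem Good.max {C D : 𝔸.ι → ℝ} (hC : 𝔸.Good C) (hD : 𝔸.Good D) : 𝔸.Good (fun p => max (C p) (D p)) := by
  refine ⟨fun p => le_max_of_le_left (hC.1 p), (hC.2.union hD.2).subset fun p hp => ?_⟩
  by_contra hcon
  simp only [Set.mem_union, Set.mem_ofPred_eq, not_or, not_not] at hcon
  exact hp (by simp [hcon.1, hcon.2])

theorem Good.pow {C : 𝔸.ι → ℝ} (hC : 𝔸.Good C) (n : ℕ) : 𝔸.Good (fun p => C p ^ n) := by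
  refine ⟨fun p => one_le_pow₀ (hC.1 p), hC.2.subset fun p hp => ?_⟩
  intro hcon
  exact hp (by simp [hcon])

theorem good_one : 𝔸.Good (fun _ => 1) := by
  exact ⟨fun _ => le_rfl, by simp⟩

theorem Good.prod {κ : Type*} (I : Finset κ) {C : κ → 𝔸.ι → ℝ} (hC : ∀ j ∈ I, 𝔸.Good (C j)) :
    𝔸.Good (fun p => ∏ j ∈ I, C j p) := by
  classical
  induction I using Finset.induction_on with
  | empty => simpa using 𝔸.good_one
  | insert j I hj ih =>
    simp only [Finset.prod_insert hj]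
    exact (hC j (Finset.mem_insert_self j I)).mul 𝔸
      (ih fun i hi => hC i (Finset.mem_insert_of_mem hi))

/-- finitely many good systems are dominated by one -/
theorem Good.exists_sup {κ : Type*} [Finite κ] {C : κ → 𝔸.ι → ℝ} (hC : ∀ j, 𝔸.Good (C j)) :
    ∃ D, 𝔸.Good D ∧ ∀ j p, C j p ≤ D p := by
  classical
  cases nonempty_fintype κ
  refine ⟨fun p => ∏ j, C j p, Good.prod 𝔸 Finset.univ fun j _ => hC j, fun j p => ?_⟩
  change C j p ≤ ∏ j, C j p
  rw [← Finset.mul_prod_erase Finset.univ (fun j => C j p) (Finset.mem_univ j)]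
  refine le_mul_of_one_le_right (zero_le_one.trans ((hC j).1 p)) ?_
  exact (Good.prod 𝔸 (Finset.univ.erase j) fun i _ => hC i).1 p

/-- `∑_p log C_p` is a finite sum -/
theorem Good.finite_support_log {C : 𝔸.ι → ℝ} (hC : 𝔸.Good C) :
    (Function.support fun p => Real.log (C p)).Finite := by
  refine hC.2.subset fun p hp hcon => hp ?_
  simp [hcon]

theorem Good.log_nonneg {C : 𝔸.ι → ℝ} (hC : 𝔸.Good C) (p : 𝔸.ι) : 0 ≤ Real.log (C p) := by
  exact Real.log_nonneg (hC.1 p)

theorem finite_ne_one {x : K} (hx : x ≠ 0) : {p | 𝔸.abv p x ≠ 1}.Finite := by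
  refine ((𝔸.finite_one_lt x).union (𝔸.finite_one_lt x⁻¹)).subset fun p hp => ?_
  rcases lt_or_gt_of_ne hp with h | h
  · right
    change 1 < 𝔸.abv p x⁻¹
    rw [map_inv₀]
    exact (one_lt_inv₀ ((𝔸.abv p).pos hx)).mpr h
  · left
    exact h

/-- the size of a family containing a nonzero element is `1` at almost all places -/
theorem finite_asize_ne_one {s : Finset K} (hs : ∃ x ∈ s, x ≠ 0) : {p | asize (𝔸.abv p) s ≠ 1}.Finite := by
  obtain ⟨x₀, hx₀s, hx₀⟩ := hs
  refine ((Set.Finite.biUnion s.finite_toSet fun x _ => 𝔸.finite_one_lt x).union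
    (𝔸.finite_ne_one hx₀)).subset fun p hp => ?_
  by_contra hcon
  simp only [Set.mem_union, Set.mem_iUnion, Set.mem_ofPred_eq, not_or, not_exists, not_lt,
    not_not, Finset.mem_coe] at hcon
  apply hp
  refine le_antisymm ((asize_le_iff _ s zero_le_one).mpr fun x hx => hcon.1 x hx) ?_
  rw [← hcon.2]
  exact le_asize _ hx₀s

end AbsFam

/-- `B^j W^(N-j) ≤ B W^(N-1)` for `1 ≤ j ≤ N`, `0 ≤ B ≤ W`. -/
theorem est_aux_term {B W : ℝ} (hB : 0 ≤ B) (hBW : B ≤ W) {j N : ℕ} (hj : 1 ≤ j) (hjN : j ≤ N) :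
    B ^ j * W ^ (N - j) ≤ B * W ^ (N - 1) := by
  have hW : 0 ≤ W := hB.trans hBW
  obtain ⟨i, rfl⟩ : ∃ i, j = i + 1 := ⟨j - 1, by omega⟩
  have h1 : N - 1 = i + (N - (i + 1)) := by omega
  rw [h1, pow_succ', pow_add, mul_assoc]
  exact mul_le_mul_of_nonneg_left
    (mul_le_mul_of_nonneg_right (pow_le_pow_left₀ hB hBW i) (pow_nonneg hW _)) hB

/-- absolute value of a monomial. -/
theorem est_aux_monomial {K : Type*} [Field K] (abv : AbsoluteValue K ℝ) {ι : Type*}
    (v : ι → K) {B : ℝ} (hv : ∀ i, abv (v i) ≤ B) (d : ι →₀ ℕ) :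
    abv (∏ i ∈ d.support, v i ^ d i) ≤ B ^ d.degree := by
  rw [map_prod, Finsupp.degree_apply, ← Finset.prod_pow_eq_pow_sum]
  refine Finset.prod_le_prod (fun i _ => abv.nonneg _) fun i _ => ?_
  rw [map_pow]
  exact pow_le_pow_left₀ (abv.nonneg _) (hv i) _

/-- archimedean bound for the value of a homogeneous polynomial. -/
theorem est_aux_eval {K : Type*} [Field K] (abv : AbsoluteValue K ℝ) {ι : Type*}
    {j : ℕ} {q : MvPolynomial ι K} (hq : q.IsHomogeneous j) (v : ι → K) {B : ℝ}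
    (hv : ∀ i, abv (v i) ≤ B) :
    abv (eval v q) ≤ (∑ d ∈ q.support, abv (q.coeff d)) * B ^ j := by
  rw [eval_eq, Finset.sum_mul]
  refine (abv.sum_le _ _).trans (Finset.sum_le_sum fun d hd => ?_)
  have hdeg : d.degree = j := by
    by_contra hne
    exact (mem_support_iff.mp hd) (hq.coeff_eq_zero hne)
  rw [map_mul, ← hdeg]
  exact mul_le_mul_of_nonneg_left (est_aux_monomial abv v hv d) (abv.nonneg _)

/-- a nonarchimedean absolute value of a sum. -/
theorem est_aux_sum_le {K : Type*} [Field K] (abv : AbsoluteValue K ℝ)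
    (hna : IsNonarchimedean (abv : K → ℝ)) {κ : Type*} (s : Finset κ) (f : κ → K) {M : ℝ}
    (hM : 0 ≤ M) (hf : ∀ i ∈ s, abv (f i) ≤ M) : abv (∑ i ∈ s, f i) ≤ M := by
  classical
  induction s using Finset.induction_on with
  | empty => simpa using hM
  | insert i s hi ih =>
    rw [Finset.sum_insert hi]
    exact (hna _ _).trans (max_le (hf i (Finset.mem_insert_self i s))
      (ih fun k hk => hf k (Finset.mem_insert_of_mem hk)))

/-- nonarchimedean bound for the value of a homogeneous polynomial with integral coefficients. -/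
theorem est_aux_eval_na {K : Type*} [Field K] (abv : AbsoluteValue K ℝ)
    (hna : IsNonarchimedean (abv : K → ℝ)) {ι : Type*}
    {j : ℕ} {q : MvPolynomial ι K} (hq : q.IsHomogeneous j) (hc : ∀ m, abv (q.coeff m) ≤ 1)
    (v : ι → K) {B : ℝ} (hB : 0 ≤ B) (hv : ∀ i, abv (v i) ≤ B) :
    abv (eval v q) ≤ B ^ j := by
  rw [eval_eq]
  refine est_aux_sum_le abv hna _ _ (pow_nonneg hB j) fun d hd => ?_
  have hdeg : d.degree = j := by
    by_contra hne
    exact (mem_support_iff.mp hd) (hq.coeff_eq_zero hne)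
  rw [map_mul, ← hdeg]
  calc abv (q.coeff d) * abv (∏ i ∈ d.support, v i ^ d i)
      ≤ 1 * B ^ d.degree :=
        mul_le_mul (hc d) (est_aux_monomial abv v hv d) (abv.nonneg _) zero_le_one
    _ = B ^ d.degree := one_mul _

/-- the core of the estimate: from `|w|^N ≤ S B |w|^(N-1)` (valid when `B ≤ |w|`). -/
theorem est_aux_core {W B S : ℝ} (hB : 0 ≤ B) (hS : 1 ≤ S) {N : ℕ} (hN : 1 ≤ N)
    (h : B ≤ W → W ^ N ≤ S * (B * W ^ (N - 1))) : W ≤ S * B := by
  by_contra hcon
  push Not at hcon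
  have hSB : B ≤ S * B := le_mul_of_one_le_left hB hS
  have hBW : B ≤ W := hSB.trans hcon.le
  have hW : 0 < W := lt_of_le_of_lt (hB.trans hSB) hcon
  have h1 := h hBW
  obtain ⟨M, rfl⟩ : ∃ M, N = M + 1 := ⟨N - 1, by omega⟩
  rw [Nat.add_sub_cancel, pow_succ', ← mul_assoc] at h1
  exact absurd (le_of_mul_le_mul_right h1 (pow_pos hW M)) (not_le.mpr hcon)

/-- (Est, one absolute value.)  The constant depends only on the equation; it is `1` if the absolute value is
nonarchimedean and all coefficients of the `a_j` have absolute value `≤ 1`.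
Nonarchimedean: some term `|a_j(v)||w|^{N-j} ≥ |w|^N`, so `|w|^j ≤ |a_j(v)| ≤ ‖a_j‖ B^j`.
Archimedean: `|w|^N ≤ ∑ c_j B^j |w|^{N-j}`, `c_j` = sum of the absolute values of the coefficients; take
`C = 1 + ∑ c_j` (if `|w| > C B` divide by `|w|^{N}`...). -/
theorem est_one {K : Type*} [Field K] (abv : AbsoluteValue K ℝ) {ι : Type*} [Finite ι] (N : ℕ)
    (a : ℕ → MvPolynomial ι K) (ha : ∀ j, (a j).IsHomogeneous j) :
    ∃ C : ℝ, 1 ≤ C ∧
      (IsNonarchimedean (abv : K → ℝ) → (∀ j m, abv ((a j).coeff m) ≤ 1) → C = 1) ∧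
      ∀ (w : K) (v : ι → K) (B : ℝ), 0 ≤ B → (∀ i, abv (v i) ≤ B) →
        w ^ N = ∑ j ∈ Finset.Icc 1 N, eval v (a j) * w ^ (N - j) → abv w ≤ C * B := by
  classical
  have hN0 : ∀ w : K, ∀ v : ι → K,
      w ^ N = ∑ j ∈ Finset.Icc 1 N, eval v (a j) * w ^ (N - j) → 1 ≤ N := by
    intro w v h
    by_contra hcon
    have : N = 0 := by omega
    subst this
    simp at h
  by_cases hcase : IsNonarchimedean (abv : K → ℝ) ∧ ∀ j m, abv ((a j).coeff m) ≤ 1
  · obtain ⟨hna, hc⟩ := hcase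
    refine ⟨1, le_rfl, fun _ _ => rfl, fun w v B hB hv h => ?_⟩
    refine est_aux_core hB le_rfl (hN0 w v h) fun hBW => ?_
    rw [one_mul, ← map_pow, h]
    refine est_aux_sum_le abv hna _ _
      (mul_nonneg hB (pow_nonneg (abv.nonneg w) _)) fun j hj => ?_
    rw [Finset.mem_Icc] at hj
    rw [map_mul, map_pow]
    exact (mul_le_mul_of_nonneg_right (est_aux_eval_na abv hna (ha j) (hc j) v hB hv)
      (pow_nonneg (abv.nonneg w) _)).trans (est_aux_term hB hBW hj.1 hj.2)
  · have hc0 : ∀ j, 0 ≤ ∑ d ∈ (a j).support, abv ((a j).coeff d) := fun j =>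
      Finset.sum_nonneg fun d _ => abv.nonneg _
    have hS0 : 0 ≤ ∑ j ∈ Finset.Icc 1 N, ∑ d ∈ (a j).support, abv ((a j).coeff d) :=
      Finset.sum_nonneg fun j _ => hc0 j
    refine ⟨1 + ∑ j ∈ Finset.Icc 1 N, ∑ d ∈ (a j).support, abv ((a j).coeff d),
      le_add_of_nonneg_right hS0, fun h1 h2 => absurd ⟨h1, h2⟩ hcase, fun w v B hB hv h => ?_⟩
    refine est_aux_core hB (le_add_of_nonneg_right hS0) (hN0 w v h) fun hBW => ?_
    have hX : 0 ≤ B * abv w ^ (N - 1) := mul_nonneg hB (pow_nonneg (abv.nonneg w) _)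
    rw [← map_pow, h]
    refine (abv.sum_le _ _).trans ?_
    refine le_trans ?_ (mul_le_mul_of_nonneg_right (le_add_of_nonneg_left zero_le_one) hX)
    rw [Finset.sum_mul]
    refine Finset.sum_le_sum fun j hj => ?_
    rw [Finset.mem_Icc] at hj
    rw [map_mul, map_pow]
    calc abv (eval v (a j)) * abv w ^ (N - j)
        ≤ ((∑ d ∈ (a j).support, abv ((a j).coeff d)) * B ^ j) * abv w ^ (N - j) :=
          mul_le_mul_of_nonneg_right (est_aux_eval abv (ha j) v hv) (pow_nonneg (abv.nonneg w) _)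
      _ = (∑ d ∈ (a j).support, abv ((a j).coeff d)) * (B ^ j * abv w ^ (N - j)) := mul_assoc _ _ _
      _ ≤ (∑ d ∈ (a j).support, abv ((a j).coeff d)) * (B * abv w ^ (N - 1)) :=
          mul_le_mul_of_nonneg_left (est_aux_term hB hBW hj.1 hj.2) (hc0 j)

/-- (Est, valuation subrings.) -/
theorem est_valuationSubring {K : Type*} [Field K] (𝒜 : ValuationSubring K) {ι : Type*} [Finite ι] (N : ℕ)
    (a : ℕ → MvPolynomial ι K) (ha : ∀ j, (a j).IsHomogeneous j) (hint : ∀ j m, (a j).coeff m ∈ 𝒜)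
    (w : K) (v : ι → K) (γ : 𝒜.ValueGroup) (hv : ∀ i, 𝒜.valuation (v i) ≤ γ)
    (h : w ^ N = ∑ j ∈ Finset.Icc 1 N, eval v (a j) * w ^ (N - j)) : 𝒜.valuation w ≤ γ := by
  by_contra hcon
  push Not at hcon
  have hW0 : 𝒜.valuation w ≠ 0 := (lt_of_le_of_lt zero_le hcon).ne'
  have hWpos : ∀ n : ℕ, 0 < 𝒜.valuation w ^ n := fun n => zero_lt_iff.mpr (pow_ne_zero n hW0)
  have heval : ∀ j, 𝒜.valuation (eval v (a j)) ≤ γ ^ j := by
    intro j
    rw [eval_eq]
    refine Valuation.map_sum_le _ fun d hd => ?_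
    have hdeg : d.degree = j := by
      by_contra hne
      exact (mem_support_iff.mp hd) ((ha j).coeff_eq_zero hne)
    have hγ : γ ^ j = ∏ i ∈ d.support, γ ^ d i := by
      rw [← hdeg, Finsupp.degree_apply, Finset.prod_pow_eq_pow_sum]
    rw [map_mul, map_prod, hγ]
    calc 𝒜.valuation ((a j).coeff d) * ∏ i ∈ d.support, 𝒜.valuation (v i ^ d i)
        ≤ 1 * ∏ i ∈ d.support, γ ^ d i := by
          refine mul_le_mul' ((𝒜.valuation_le_one_iff _).mpr (hint j d)) ?_
          refine Finset.prod_le_prod' fun i _ => ?_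
          rw [map_pow]
          exact pow_le_pow_left' (hv i) _
      _ = ∏ i ∈ d.support, γ ^ d i := one_mul _
  have hlt : 𝒜.valuation (w ^ N) < 𝒜.valuation w ^ N := by
    rw [h]
    refine Valuation.map_sum_lt _ (pow_ne_zero N hW0) fun j hj => ?_
    rw [Finset.mem_Icc] at hj
    rw [map_mul, map_pow]
    have h1 : γ ^ j < 𝒜.valuation w ^ j := pow_lt_pow_left₀ hcon zero_le (by omega)
    calc 𝒜.valuation (eval v (a j)) * 𝒜.valuation w ^ (N - j)
        ≤ γ ^ j * 𝒜.valuation w ^ (N - j) := mul_le_mul_left (heval j) _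
      _ < 𝒜.valuation w ^ j * 𝒜.valuation w ^ (N - j) :=
          mul_lt_mul_of_pos_right h1 (hWpos _)
      _ = 𝒜.valuation w ^ N := by rw [← pow_add, Nat.add_sub_cancel' hj.2]
  rw [map_pow] at hlt
  exact lt_irrefl _ hlt

section Main

variable {K : Type} [Field K] [IsAlgClosed K] {T : Type}

/-- valuative domination of families of functions on `T` -/
def ValLE (K : Type) [Field K] {T : Type} (f g : Finset (T → K)) : Prop :=
  ∀ (Ω : Type) [Field Ω] [Algebra K Ω] [DecidableEq Ω] (φ : (T → K) →ₐ[K] Ω) (V : ResVal K Ω),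
    V.vsize (f.image φ) ≤ V.vsize (g.image φ)

/-- the equations provided by the transfer lemma, evaluated pointwise, with `a j = 0` outside `[1,N]`. -/
theorem est_exists_eq (f g : Finset (T → K)) (H : ValLE K f g) (u : T → K) (hu : u ∈ f) :
    ∃ (N : ℕ) (a : ℕ → MvPolynomial ↥g K), (∀ j, (a j).IsHomogeneous j) ∧
      (∀ j, j ∉ Finset.Icc 1 N → a j = 0) ∧
      ∀ t : T, u t ^ N =
        ∑ j ∈ Finset.Icc 1 N, eval (fun i : ↥g => (i : T → K) t) (a j) * u t ^ (N - j) := by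
  classical
  have htr : HomIntegral K u (fun i : ↥g => (i : T → K)) := by
    refine transfer u _ fun Ω _ _ φ V => ?_
    have h1 : V.val (φ u) ≤ V.vsize (g.image φ) :=
      (V.le_vsize (Finset.mem_image_of_mem φ hu)).trans (H Ω φ V)
    rcases g.eq_empty_or_nonempty with hg | hg
    · left
      rw [hg, Finset.image_empty, ResVal.vsize_empty] at h1
      exact (Valuation.zero_iff _).mp (le_antisymm h1 zero_le)
    · right
      obtain ⟨x, hx, hxe⟩ := V.exists_vsize_eq (hg.image φ)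
      obtain ⟨i, hi, rfl⟩ := Finset.mem_image.mp hx
      exact ⟨⟨i, hi⟩, hxe ▸ h1⟩
  obtain ⟨N, a, ha, heq⟩ := htr
  refine ⟨N, fun j => if j ∈ Finset.Icc 1 N then a j else 0, fun j => ?_, fun j hj => if_neg hj,
    fun t => ?_⟩
  · beta_reduce
    split_ifs
    · exact ha j
    · exact isHomogeneous_zero _ _ _
  · have h2 := congrFun heq t
    rw [Pi.pow_apply, Finset.sum_apply] at h2
    rw [h2]
    refine Finset.sum_congr rfl fun j hj => ?_
    beta_reduce
    rw [if_pos hj, Pi.mul_apply, Pi.pow_apply]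
    congr 1
    have h3 := comp_aeval_apply (f := fun i : ↥g => (i : T → K))
      (Pi.evalAlgHom K (fun _ : T => K) t) (a j)
    rw [Pi.evalAlgHom_apply] at h3
    rw [h3, aeval_eq_eval]
    rfl

/-- **Main estimate.**  (`transfer` for each member of `f`, `est_one` at each place, `Good.exists_sup`.) -/
theorem exists_good_of_valLE [DecidableEq K] (𝔸 : AbsFam K) (f g : Finset (T → K)) (H : ValLE K f g) :
    ∃ C, 𝔸.Good C ∧ ∀ p t, asize (𝔸.abv p) (f.image fun u => u t) ≤ C p * asize (𝔸.abv p) (g.image fun u => u t) := by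
  classical
  choose N a ha ha0 heq using fun u : ↥f => est_exists_eq f g H u u.2
  choose C hC1 hC2 hC3 using fun (u : ↥f) (p : 𝔸.ι) => est_one (𝔸.abv p) (N u) (a u) (ha u)
  have hgood : ∀ u : ↥f, 𝔸.Good (C u) := by
    intro u
    refine ⟨hC1 u, ?_⟩
    have hfin : (⋃ j ∈ Finset.Icc 1 (N u), ⋃ m ∈ (a u j).support,
        {p | 1 < 𝔸.abv p ((a u j).coeff m)}).Finite :=
      Set.Finite.biUnion (Finset.finite_toSet _) fun j _ =>
        Set.Finite.biUnion (Finset.finite_toSet _) fun m _ => 𝔸.finite_one_lt _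
    refine (𝔸.finite_arch.union hfin).subset fun p hp => ?_
    by_contra hcon
    simp only [Set.mem_union, Set.mem_ofPred_eq, not_or, not_not, Set.mem_iUnion, not_exists,
      not_lt] at hcon
    refine hp (hC2 u p hcon.1 fun j m => ?_)
    by_cases hj : j ∈ Finset.Icc 1 (N u)
    · by_cases hm : m ∈ (a u j).support
      · exact hcon.2 j hj m hm
      · rw [notMem_support_iff.mp hm, map_zero]
        exact zero_le_one
    · rw [ha0 u j hj, coeff_zero, map_zero]
      exact zero_le_one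
  obtain ⟨D, hD, hCD⟩ := AbsFam.Good.exists_sup 𝔸 hgood
  refine ⟨D, hD, fun p t => ?_⟩
  have hB : 0 ≤ asize (𝔸.abv p) (g.image fun u => u t) := asize_nonneg _ _
  have hD0 : 0 ≤ D p := zero_le_one.trans (hD.1 p)
  refine (asize_le_iff _ _ (mul_nonneg hD0 hB)).mpr fun x hx => ?_
  obtain ⟨u, hu, rfl⟩ := Finset.mem_image.mp hx
  refine (hC3 ⟨u, hu⟩ p (u t) (fun i : ↥g => (i : T → K) t) _ hB (fun i => ?_)
    (heq ⟨u, hu⟩ t)).trans (mul_le_mul_of_nonneg_right (hCD ⟨u, hu⟩ p) hB)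
  exact le_asize _ (Finset.mem_image.mpr ⟨i, i.2, rfl⟩)

/-- **Main estimate, valuation subrings**: there is a finite set `c` of elements of `K` such that the
estimate holds with constant `1` for each valuation subring containing `c`. -/
theorem exists_finset_of_valLE [DecidableEq K] (f g : Finset (T → K)) (H : ValLE K f g) :
    ∃ c : Finset K, ∀ 𝒜 : ValuationSubring K, (∀ x ∈ c, x ∈ 𝒜) → ∀ (t : T) (γ : 𝒜.ValueGroup),
      (∀ u ∈ g, 𝒜.valuation (u t) ≤ γ) → ∀ u ∈ f, 𝒜.valuation (u t) ≤ γ := by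
  classical
  choose N a ha ha0 heq using fun u : ↥f => est_exists_eq f g H u u.2
  refine ⟨Finset.univ.biUnion fun u : ↥f => (Finset.Icc 1 (N u)).biUnion fun j =>
    (a u j).support.image fun m => (a u j).coeff m, fun 𝒜 hc t γ hg u hu => ?_⟩
  refine est_valuationSubring 𝒜 (N ⟨u, hu⟩) (a ⟨u, hu⟩) (ha ⟨u, hu⟩) (fun j m => ?_) (u t)
    (fun i : ↥g => (i : T → K) t) γ (fun i => hg i i.2) (heq ⟨u, hu⟩ t)
  by_cases hj : j ∈ Finset.Icc 1 (N ⟨u, hu⟩)
  · by_cases hm : m ∈ (a ⟨u, hu⟩ j).support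
    · refine hc _ ?_
      exact Finset.mem_biUnion.mpr ⟨⟨u, hu⟩, Finset.mem_univ _,
        Finset.mem_biUnion.mpr ⟨j, hj, Finset.mem_image_of_mem _ hm⟩⟩
    · rw [notMem_support_iff.mp hm]
      exact 𝒜.zero_mem
  · rw [ha0 ⟨u, hu⟩ j hj, coeff_zero]
    exact 𝒜.zero_mem

end Main

end Fermat.Agent.S17
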