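import Mathlib

/-!
# S17-ALG: valuation rings with residue field `K` (`ResVal`) and Atiyah–Macdonald 5.21
-/

set_option autoImplicit false

namespace Fermat.Agent.S17

/-- A valuation subring `O` of `Ω ⊇ K` containing `K`, together with a ring hom `res : O → K`
which is the identity on `K` (so `O/𝔪 = K`). -/
structure ResVal (K Ω : Type*) [Field K] [Field Ω] [Algebra K Ω] where
  O : ValuationSubring Ω
  res : O →+* K
  algebraMap_mem : ∀ a : K, algebraMap K Ω a ∈ O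
  res_algebraMap : ∀ a : K, res ⟨algebraMap K Ω a, algebraMap_mem a⟩ = a

namespace ResVal

variable {K Ω : Type*} [Field K] [Field Ω] [Algebra K Ω] (V : ResVal K Ω)

/-- the valuation of `V` -/
noncomputable abbrev val : Valuation Ω V.O.ValueGroup := V.O.valuation

theorem val_le_one_iff (x : Ω) : V.val x ≤ 1 ↔ x ∈ V.O := by
  exact V.O.valuation_le_one_iff x

theorem val_algebraMap {a : K} (ha : a ≠ 0) : V.val (algebraMap K Ω a) = 1 := by
  have h1 : V.val (algebraMap K Ω a) ≤ 1 := (V.O.valuation_le_one_iff _).2 (V.algebraMap_mem a)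
  have h2 : V.val (algebraMap K Ω a⁻¹) ≤ 1 := (V.O.valuation_le_one_iff _).2 (V.algebraMap_mem a⁻¹)
  have h3 : V.val (algebraMap K Ω a) * V.val (algebraMap K Ω a⁻¹) = 1 := by
    rw [← map_mul, ← map_mul, mul_inv_cancel₀ ha, map_one, map_one]
  refine le_antisymm h1 ?_
  calc (1 : V.O.ValueGroup) = V.val (algebraMap K Ω a) * V.val (algebraMap K Ω a⁻¹) := h3.symm
    _ ≤ V.val (algebraMap K Ω a) * 1 := mul_le_mul_right h2 _
    _ = V.val (algebraMap K Ω a) := mul_one _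

theorem val_algebraMap_le (a : K) : V.val (algebraMap K Ω a) ≤ 1 := by
  exact (V.O.valuation_le_one_iff _).2 (V.algebraMap_mem a)

/-- `res x = 0` iff `val x < 1`. -/
theorem res_eq_zero_iff (x : V.O) : V.res x = 0 ↔ V.val (x : Ω) < 1 := by
  have hsurj : Function.Surjective V.res := fun a => ⟨_, V.res_algebraMap a⟩
  have hmax : (RingHom.ker V.res).IsMaximal := RingHom.ker_isMaximal_of_surjective V.res hsurj
  have hker : RingHom.ker V.res = IsLocalRing.maximalIdeal V.O := IsLocalRing.eq_maximalIdeal hmax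
  rw [← V.O.valuation_lt_one_iff, ← hker, RingHom.mem_ker]

theorem val_eq_one_iff (x : V.O) : V.val (x : Ω) = 1 ↔ V.res x ≠ 0 := by
  rw [Ne, V.res_eq_zero_iff, not_lt]
  exact ⟨fun h => h.ge, fun h => le_antisymm (V.O.valuation_le_one x) h⟩

/-- every element of `O` is congruent to the constant `res x`. -/
theorem val_sub_res_lt (x : V.O) : V.val ((x : Ω) - algebraMap K Ω (V.res x)) < 1 := by
  have h := (V.res_eq_zero_iff (x - ⟨algebraMap K Ω (V.res x), V.algebraMap_mem _⟩)).1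
    (by rw [map_sub, V.res_algebraMap, sub_self])
  exact h

theorem smul_mem (a : K) {x : Ω} (hx : x ∈ V.O) : a • x ∈ V.O := by
  rw [Algebra.smul_def]
  exact V.O.mul_mem _ _ (V.algebraMap_mem a) hx

theorem res_smul (a : K) {x : Ω} (hx : x ∈ V.O) :
    V.res ⟨a • x, V.smul_mem a hx⟩ = a * V.res ⟨x, hx⟩ := by
  have h : (⟨a • x, V.smul_mem a hx⟩ : V.O) = ⟨algebraMap K Ω a, V.algebraMap_mem a⟩ * ⟨x, hx⟩ :=
    Subtype.ext (Algebra.smul_def a x)
  rw [h, map_mul, V.res_algebraMap]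

/-- The trivial `ResVal` on `K` itself. -/
def triv (K : Type*) [Field K] : ResVal K K where
  O := ⊤
  res := (⊤ : ValuationSubring K).subtype
  algebraMap_mem _ := trivial
  res_algebraMap _ := rfl

end ResVal

section aux

open Polynomial

section descent

variable {A K Ω : Type*} [CommRing A] [Field K] [Field Ω]

/-- one step of the descent in Atiyah–Macdonald 5.20. -/
theorem ResVal_aux_step (φ₁ : A →+* Ω) (φ₂ : A →+* K) (hinj : Function.Injective φ₁)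
    (hunit : ∀ c : A, φ₂ c = 1 → ∃ d : A, d * c = 1) {y : Ω} (hy : y ≠ 0)
    {p p' : A[X]} (hp : eval₂ φ₁ y p = 0) (hp1 : p.map φ₂ = 1)
    (hp' : eval₂ φ₁ y⁻¹ p' = 0) (hp1' : p'.map φ₂ = 1) :
    ∃ q : A[X], eval₂ φ₁ y q = 0 ∧ q.map φ₂ = 1 ∧ q.natDegree < p'.natDegree := by
  have hA : Nontrivial A := φ₂.domain_nontrivial
  set n := p'.natDegree with hn
  -- the constant coefficient
  have hc0 : φ₂ (p'.coeff 0) = 1 := by
    have := congrArg (fun r => r.coeff 0) hp1'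
    simpa using this
  obtain ⟨d, hd⟩ := hunit _ hc0
  have hd1 : φ₂ d = 1 := by
    have := congrArg φ₂ hd
    rwa [map_mul, hc0, mul_one, map_one] at this
  have hc0' : p'.coeff 0 ≠ 0 := by
    intro h
    rw [h, map_zero] at hc0
    exact zero_ne_one hc0
  have hn0 : n ≠ 0 := by
    intro h0
    have hC : p' = C (p'.coeff 0) := eq_C_of_natDegree_eq_zero h0
    rw [hC, eval₂_C] at hp'
    exact hc0' (hinj (by rw [hp', map_zero]))
  have hlead : p'.reverse.leadingCoeff = p'.coeff 0 := by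
    rw [reverse_leadingCoeff, trailingCoeff, natTrailingDegree_eq_zero.2 (Or.inr hc0')]
  set Q : A[X] := C d * p'.reverse with hQ
  have hQm : Q.Monic := monic_C_mul_of_mul_leadingCoeff_eq_one (by rw [hlead, hd])
  have hQmap : Q.map φ₂ = X ^ n := by
    rw [hQ, Polynomial.map_mul, map_C, hd1, C_1, one_mul, reverse, ← reflect_map, hp1',
      ← C_1, reflect_C, C_1, one_mul]
  have hQdeg : Q.natDegree = n := by
    rw [← hQm.natDegree_map φ₂, hQmap, natDegree_X_pow]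
  have hQev : eval₂ φ₁ y Q = 0 := by
    let _ : Invertible (y⁻¹) := invertibleOfNonzero (inv_ne_zero hy)
    have h1 := (eval₂_reverse_eq_zero_iff φ₁ (y⁻¹) p').2 hp'
    have h2 : ⅟(y⁻¹) = y := by rw [invOf_eq_inv, inv_inv]
    rw [h2] at h1
    rw [hQ, eval₂_mul, h1, mul_zero]
  refine ⟨p %ₘ Q, ?_, ?_, ?_⟩
  · have h := congrArg (eval₂ φ₁ y) (modByMonic_add_div p Q)
    rw [eval₂_add, eval₂_mul, hQev, zero_mul, add_zero, hp] at h
    exact h
  · rw [map_modByMonic φ₂ hQm, hp1, hQmap]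
    refine (modByMonic_eq_self_iff (monic_X_pow n)).2 ?_
    rw [degree_one, degree_X_pow]
    exact_mod_cast Nat.pos_of_ne_zero hn0
  · rw [← hQdeg]
    refine natDegree_modByMonic_lt p hQm ?_
    intro h1
    rw [h1, natDegree_one] at hQdeg
    exact hn0 hQdeg.symm

/-- Atiyah–Macdonald 5.20. -/
theorem ResVal_aux_noBoth (φ₁ : A →+* Ω) (φ₂ : A →+* K) (hinj : Function.Injective φ₁)
    (hunit : ∀ c : A, φ₂ c = 1 → ∃ d : A, d * c = 1) (m : ℕ) :
    ∀ (y : Ω), y ≠ 0 → ∀ p p' : A[X], p'.natDegree = m → eval₂ φ₁ y p = 0 → p.map φ₂ = 1 →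
      eval₂ φ₁ y⁻¹ p' = 0 → p'.map φ₂ = 1 → False := by
  induction m using Nat.strong_induction_on with
  | _ m ih =>
    intro y hy p p' hm hp hp1 hp' hp1'
    obtain ⟨q, hq, hq1, hqdeg⟩ := ResVal_aux_step φ₁ φ₂ hinj hunit hy hp hp1 hp' hp1'
    refine ih q.natDegree (hm ▸ hqdeg) y⁻¹ (inv_ne_zero hy) p' q rfl hp' hp1' ?_ hq1
    rwa [inv_inv]

end descent

section graph

variable {K Ω : Type*} [Field K] [Field Ω] [Algebra K Ω]

/-- first projection of a "graph" subalgebra. -/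
def ResVal_aux_φ₁ (Γ : Subalgebra K (Ω × K)) : Γ →+* Ω :=
  (RingHom.fst Ω K).comp (algebraMap Γ (Ω × K))

/-- second projection of a "graph" subalgebra. -/
def ResVal_aux_φ₂ (Γ : Subalgebra K (Ω × K)) : Γ →+* K :=
  (RingHom.snd Ω K).comp (algebraMap Γ (Ω × K))

/-- `Γ[z]`. -/
noncomputable def ResVal_aux_ext (Γ : Subalgebra K (Ω × K)) (z : Ω × K) : Subalgebra K (Ω × K) :=
  ((aeval z : Γ[X] →ₐ[Γ] (Ω × K)).restrictScalars K).range

theorem ResVal_aux_le_ext (Γ : Subalgebra K (Ω × K)) (z : Ω × K) : Γ ≤ ResVal_aux_ext Γ z := by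
  intro γ hγ
  exact ⟨C ⟨γ, hγ⟩, by simp⟩

theorem ResVal_aux_self_mem_ext (Γ : Subalgebra K (Ω × K)) (z : Ω × K) :
    z ∈ ResVal_aux_ext Γ z := ⟨X, by simp⟩

theorem ResVal_aux_of_mem_ext {Γ : Subalgebra K (Ω × K)} {z w : Ω × K}
    (h : w ∈ ResVal_aux_ext Γ z) :
    ∃ p : Γ[X], eval₂ (ResVal_aux_φ₁ Γ) z.1 p = w.1 ∧ eval₂ (ResVal_aux_φ₂ Γ) z.2 p = w.2 := by
  obtain ⟨p, hp⟩ := h
  have hp' : eval₂ (algebraMap Γ (Ω × K)) z p = w := hp
  refine ⟨p, ?_, ?_⟩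
  · rw [← hp']
    exact (hom_eval₂ p (algebraMap Γ (Ω × K)) (RingHom.fst Ω K) z).symm
  · rw [← hp']
    exact (hom_eval₂ p (algebraMap Γ (Ω × K)) (RingHom.snd Ω K) z).symm

variable {Γ : Subalgebra K (Ω × K)}
  (hmax : Maximal (fun S : Subalgebra K (Ω × K) => ((0 : Ω), (1 : K)) ∉ S) Γ)

include hmax

theorem ResVal_aux_mem_of_ext {z : Ω × K} (h : ((0 : Ω), (1 : K)) ∉ ResVal_aux_ext Γ z) : z ∈ Γ :=
  hmax.le_of_ge h (ResVal_aux_le_ext Γ z) (ResVal_aux_self_mem_ext Γ z)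

theorem ResVal_aux_unique {x : Ω} {a b : K} (ha : (x, a) ∈ Γ) (hb : (x, b) ∈ Γ) : a = b := by
  by_contra hab
  have hab' : a - b ≠ 0 := sub_ne_zero.2 hab
  have h1 : (a - b)⁻¹ • ((x, a) - (x, b) : Ω × K) ∈ Γ := Γ.smul_mem (Γ.sub_mem ha hb) _
  have h2 : (a - b)⁻¹ • ((x, a) - (x, b) : Ω × K) = (0, 1) := by
    ext
    · simp
    · simp [hab']
  exact hmax.prop (h2 ▸ h1)

theorem ResVal_aux_inj : Function.Injective (ResVal_aux_φ₁ Γ) := by
  rintro ⟨⟨x, a⟩, ha⟩ ⟨⟨y, b⟩, hb⟩ hxy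
  have hxy' : x = y := hxy
  subst hxy'
  have := ResVal_aux_unique hmax ha hb
  subst this
  rfl

theorem ResVal_aux_inv_mem {u : Ω} {a : K} (h : (u, a) ∈ Γ) (ha : a ≠ 0) : (u⁻¹, a⁻¹) ∈ Γ := by
  have hu : u ≠ 0 := by
    rintro rfl
    exact ha (ResVal_aux_unique hmax h Γ.zero_mem)
  refine ResVal_aux_mem_of_ext hmax fun hmem => ?_
  obtain ⟨p, hp1, hp2⟩ := ResVal_aux_of_mem_ext hmem
  simp only at hp1 hp2
  let _ : Invertible (u⁻¹) := invertibleOfNonzero (inv_ne_zero hu)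
  let _ : Invertible (a⁻¹) := invertibleOfNonzero (inv_ne_zero ha)
  have h1 := (eval₂_reverse_eq_zero_iff (ResVal_aux_φ₁ Γ) (u⁻¹) p).2 hp1
  rw [invOf_eq_inv, inv_inv] at h1
  have h2 : eval₂ (ResVal_aux_φ₁ Γ) u p.reverse =
      ResVal_aux_φ₁ Γ (p.reverse.eval ⟨(u, a), h⟩) :=
    eval₂_at_apply (ResVal_aux_φ₁ Γ) (⟨(u, a), h⟩ : Γ)
  have h3 : p.reverse.eval (⟨(u, a), h⟩ : Γ) = 0 :=
    ResVal_aux_inj hmax (by rw [← h2, h1, map_zero])
  have h4 : eval₂ (ResVal_aux_φ₂ Γ) a p.reverse =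
      ResVal_aux_φ₂ Γ (p.reverse.eval ⟨(u, a), h⟩) :=
    eval₂_at_apply (ResVal_aux_φ₂ Γ) (⟨(u, a), h⟩ : Γ)
  rw [h3, map_zero] at h4
  have h5 : eval₂ (ResVal_aux_φ₂ Γ) (⅟(a⁻¹)) p.reverse = 0 := by
    rw [invOf_eq_inv, inv_inv, h4]
  rw [eval₂_reverse_eq_zero_iff, hp2] at h5
  exact one_ne_zero h5

theorem ResVal_aux_unit (c : Γ) (hc : ResVal_aux_φ₂ Γ c = 1) : ∃ d : Γ, d * c = 1 := by
  obtain ⟨⟨u, a⟩, h⟩ := c
  have ha : a = 1 := hc
  subst ha
  have hu : u ≠ 0 := by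
    rintro rfl
    exact one_ne_zero (ResVal_aux_unique hmax h Γ.zero_mem)
  refine ⟨⟨(u⁻¹, 1⁻¹), ResVal_aux_inv_mem hmax h one_ne_zero⟩, ?_⟩
  ext
  · simp [hu]
  · simp

omit hmax in
theorem ResVal_aux_surj : Function.Surjective (ResVal_aux_φ₂ Γ) := by
  intro a
  refine ⟨algebraMap K Γ a, ?_⟩
  show ((algebraMap K Γ a : Γ) : Ω × K).2 = a
  simp

theorem ResVal_aux_alt [IsAlgClosed K] (x : Ω) :
    (∃ a, (x, a) ∈ Γ) ∨
      ∃ p : Γ[X], eval₂ (ResVal_aux_φ₁ Γ) x p = 0 ∧ p.map (ResVal_aux_φ₂ Γ) = 1 := by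
  set I : Ideal Γ[X] := RingHom.ker (eval₂RingHom (ResVal_aux_φ₁ Γ) x) with hI
  set J : Ideal K[X] := I.map (mapRingHom (ResVal_aux_φ₂ Γ)) with hJ
  have hsurj : Function.Surjective (mapRingHom (ResVal_aux_φ₂ Γ)) :=
    map_surjective _ ResVal_aux_surj
  by_cases hJt : J = ⊤
  · right
    have h1 : (1 : K[X]) ∈ J := hJt ▸ Submodule.mem_top
    obtain ⟨p, hpI, hp⟩ := (Ideal.mem_map_iff_of_surjective _ hsurj).1 h1
    exact ⟨p, hpI, hp⟩
  · left
    set g := Submodule.IsPrincipal.generator J with hg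
    have hdeg : g.degree ≠ 0 := by
      intro h0
      apply hJt
      have hu : IsUnit g := isUnit_iff_degree_eq_zero.2 h0
      rw [← Ideal.span_singleton_generator J]
      exact Ideal.span_singleton_eq_top.2 hu
    obtain ⟨a, ha⟩ := IsAlgClosed.exists_root g hdeg
    refine ⟨a, ResVal_aux_mem_of_ext hmax fun hmem => ?_⟩
    obtain ⟨p, hp1, hp2⟩ := ResVal_aux_of_mem_ext hmem
    simp only at hp1 hp2
    have hpJ : p.map (ResVal_aux_φ₂ Γ) ∈ J := Ideal.mem_map_of_mem _ (show p ∈ I from hp1)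
    have hdvd : g ∣ p.map (ResVal_aux_φ₂ Γ) := (Submodule.IsPrincipal.mem_iff_generator_dvd J).1 hpJ
    have h0 := eval_eq_zero_of_dvd_of_eval_eq_zero hdvd ha
    rw [eval_map, hp2] at h0
    exact one_ne_zero h0

end graph

end aux

/-- **Atiyah–Macdonald 5.21** (with `K`-structure).  `K` algebraically closed, `R ⊆ Ω` a `K`-subalgebra,
`θ : R → K` a `K`-algebra hom.  Then `θ` extends to a valuation ring of `Ω` with residue field `K`.

Proof: Zorn on pairs `(R', θ')` extending `(R, θ)`; a maximal pair is local with maximal ideal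
`ker θ'`; for `x ≠ 0` either `𝔪[x] ≠ R'[x]` or `𝔪[x⁻¹] ≠ R'[x⁻¹]` (A–M 5.20); in the first case
`R'[x]/𝔪'` is an algebraic (f.g. as an algebra by the image of `x`) extension field of `K`, hence `= K`, so `θ'` extends
to `R'[x]`, so `x ∈ R'` by maximality. -/
theorem exists_resVal_of_hom {K Ω : Type*} [Field K] [IsAlgClosed K] [Field Ω] [Algebra K Ω]
    (R : Subalgebra K Ω) (θ : R →ₐ[K] K) :
    ∃ V : ResVal K Ω, ∀ x : R, ∃ h : (x : Ω) ∈ V.O, V.res ⟨x, h⟩ = θ x := by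
  classical
  -- the graph of `θ`
  let Γ₀ : Subalgebra K (Ω × K) := (AlgHom.prod R.val θ).range
  have h₀ : ((0 : Ω), (1 : K)) ∉ Γ₀ := by
    rintro ⟨r, hr⟩
    have h1 : (r : Ω) = 0 := congrArg Prod.fst hr
    have h2 : θ r = 1 := congrArg Prod.snd hr
    have h3 : r = 0 := Subtype.ext h1
    rw [h3, map_zero] at h2
    exact zero_ne_one h2
  -- Zorn
  obtain ⟨Γ, hΓ₀, hmax⟩ : ∃ Γ, Γ₀ ≤ Γ ∧
      Maximal (fun S : Subalgebra K (Ω × K) => ((0 : Ω), (1 : K)) ∉ S) Γ := by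
    refine zorn_le_nonempty₀ {S : Subalgebra K (Ω × K) | ((0 : Ω), (1 : K)) ∉ S} ?_ Γ₀ h₀
    intro c hc hchain y hy
    refine ⟨sSup c, ?_, fun z hz => le_sSup hz⟩
    intro hmem
    have : Nonempty c := ⟨⟨y, hy⟩⟩
    have hdir : Directed (· ≤ ·) (fun i : c => (i : Subalgebra K (Ω × K))) := hchain.directed
    rw [sSup_eq_iSup', ← SetLike.mem_coe, Subalgebra.coe_iSup_of_directed hdir,
      Set.mem_iUnion] at hmem
    obtain ⟨i, hi⟩ := hmem
    exact hc i.2 hi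
  -- the valuation ring
  have hval : ∀ x : Ω, (∃ a, (x, a) ∈ Γ) ∨ ∃ a, (x⁻¹, a) ∈ Γ := by
    intro x
    by_cases hx : x = 0
    · exact Or.inl ⟨0, hx ▸ Γ.zero_mem⟩
    rcases ResVal_aux_alt hmax x with h | ⟨p, hp, hp1⟩
    · exact Or.inl h
    rcases ResVal_aux_alt hmax x⁻¹ with h | ⟨p', hp', hp1'⟩
    · exact Or.inr h
    exact (ResVal_aux_noBoth _ _ (ResVal_aux_inj hmax) (ResVal_aux_unit hmax) _ x hx p p' rfl
      hp hp1 hp' hp1').elim
  let O : ValuationSubring Ω :=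
    { carrier := {x | ∃ a, (x, a) ∈ Γ}
      mul_mem' := by
        rintro x y ⟨a, ha⟩ ⟨b, hb⟩
        exact ⟨a * b, Γ.mul_mem ha hb⟩
      one_mem' := ⟨1, Γ.one_mem⟩
      add_mem' := by
        rintro x y ⟨a, ha⟩ ⟨b, hb⟩
        exact ⟨a + b, Γ.add_mem ha hb⟩
      zero_mem' := ⟨0, Γ.zero_mem⟩
      neg_mem' := by
        rintro x ⟨a, ha⟩
        exact ⟨-a, Γ.neg_mem ha⟩
      mem_or_inv_mem' := hval }
  have hO : ∀ x : O, ∃ a, ((x : Ω), a) ∈ Γ := fun x => x.2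
  choose ρ hρ using hO
  have hρu : ∀ (x : O) (a : K), ((x : Ω), a) ∈ Γ → ρ x = a := fun x a ha =>
    ResVal_aux_unique hmax (hρ x) ha
  let res : O →+* K :=
    { toFun := ρ
      map_one' := hρu 1 1 Γ.one_mem
      map_mul' := fun x y => hρu (x * y) _ (Γ.mul_mem (hρ x) (hρ y))
      map_zero' := hρu 0 0 Γ.zero_mem
      map_add' := fun x y => hρu (x + y) _ (Γ.add_mem (hρ x) (hρ y)) }
  have halg : ∀ a : K, (algebraMap K Ω a, a) ∈ Γ := fun a => Γ.algebraMap_mem a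
  refine ⟨⟨O, res, fun a => ⟨a, halg a⟩, fun a => hρu _ a (halg a)⟩, fun x => ?_⟩
  have hx : ((x : Ω), θ x) ∈ Γ := hΓ₀ ⟨x, rfl⟩
  exact ⟨⟨θ x, hx⟩, hρu _ _ hx⟩

end Fermat.Agent.S17
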