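import Fermat.Agent.S17.Alg.ResVal

/-!
# S17-ALG: the transfer lemma (valuative criterion for homogeneous integral dependence)
-/

set_option autoImplicit false

namespace Fermat.Agent.S17

open MvPolynomial

universe u

/-- `w` satisfies a homogeneous integral equation over the family `v`:
`w^N = ∑_{j=1}^N a_j(v) w^{N-j}` with `a_j` homogeneous of degree `j`. -/
def HomIntegral (K : Type*) [Field K] {A' : Type*} [CommRing A'] [Algebra K A'] {ι : Type*}
    (w : A') (v : ι → A') : Prop :=
  ∃ (N : ℕ) (a : ℕ → MvPolynomial ι K), (∀ j, (a j).IsHomogeneous j) ∧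
    w ^ N = ∑ j ∈ Finset.Icc 1 N, aeval v (a j) * w ^ (N - j)

/-- scaling of a homogeneous polynomial -/
theorem transfer_aeval_mul {K S ι : Type*} [CommSemiring K] [CommSemiring S] [Algebra K S]
    {P : MvPolynomial ι K} {n : ℕ} (hP : P.IsHomogeneous n) (c : S) (y : ι → S) :
    aeval (fun i => c * y i) P = c ^ n * aeval y P := by
  rw [aeval_def, aeval_def, eval₂_eq, eval₂_eq, Finset.mul_sum]
  refine Finset.sum_congr rfl fun d hd => ?_
  have h1 : ∏ i ∈ d.support, (c * y i) ^ d i = c ^ n * ∏ i ∈ d.support, y i ^ d i := by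
    simp_rw [mul_pow]
    rw [Finset.prod_mul_distrib, Finset.prod_pow_eq_pow_sum, ← hP.degree_eq_sum_deg_support hd]
  rw [h1]
  ring

/-- Case 1 of the transfer lemma: a polynomial relation with nonzero constant term between the
`v i / w` gives a homogeneous integral equation. -/
theorem transfer_of_relation {K : Type*} [Field K] {A' : Type*} [CommRing A'] [Algebra K A']
    {ι : Type*} (w : A') (v : ι → A') (x : ι → Localization.Away w)
    (hx : ∀ i, algebraMap A' (Localization.Away w) w * x i =
      algebraMap A' (Localization.Away w) (v i))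
    (Q : MvPolynomial ι K) (hQ0 : constantCoeff Q ≠ 0) (hQ : aeval x Q = 0) :
    HomIntegral K w v := by
  classical
  set W := algebraMap A' (Localization.Away w) w with hW
  set d := Q.totalDegree with hd
  set c := constantCoeff Q with hc
  -- the relation in the localisation
  have h1 : ∀ j, W ^ j * aeval x (homogeneousComponent j Q) =
      algebraMap A' (Localization.Away w) (aeval v (homogeneousComponent j Q)) := by
    intro j
    rw [← transfer_aeval_mul (homogeneousComponent_isHomogeneous j Q)]
    have : (fun i => W * x i) = fun i => algebraMap A' (Localization.Away w) (v i) := funext hx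
    rw [this]
    have h2 := MvPolynomial.aeval_algebraMap_apply (A := A') (Localization.Away w) v
      (homogeneousComponent j Q)
    exact h2
  have h2 : algebraMap A' (Localization.Away w)
      (∑ j ∈ Finset.range (d + 1), w ^ (d - j) * aeval v (homogeneousComponent j Q)) = 0 := by
    rw [map_sum]
    have : ∀ j ∈ Finset.range (d + 1), algebraMap A' (Localization.Away w)
        (w ^ (d - j) * aeval v (homogeneousComponent j Q)) =
        W ^ d * aeval x (homogeneousComponent j Q) := by
      intro j hj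
      have hj' : j ≤ d := Nat.lt_succ_iff.1 (Finset.mem_range.1 hj)
      rw [map_mul, map_pow, ← h1, ← mul_assoc, ← pow_add, Nat.sub_add_cancel hj']
    rw [Finset.sum_congr rfl this, ← Finset.mul_sum, ← map_sum, sum_homogeneousComponent, hQ,
      mul_zero]
  obtain ⟨⟨_, m, rfl⟩, hm⟩ := (IsLocalization.map_eq_zero_iff (Submonoid.powers w)
    (Localization.Away w) _).1 h2
  simp only at hm
  -- rewrite as a sum up to `N = m + d`
  set N := m + d with hN
  have h3 : ∑ j ∈ Finset.range (N + 1), aeval v (homogeneousComponent j Q) * w ^ (N - j) = 0 := by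
    have hsub : Finset.range (d + 1) ⊆ Finset.range (N + 1) :=
      Finset.range_subset_range.2 (by omega)
    rw [← Finset.sum_subset hsub]
    · rw [← hm, Finset.mul_sum]
      refine Finset.sum_congr rfl fun j hj => ?_
      have hj' : j ≤ d := Nat.lt_succ_iff.1 (Finset.mem_range.1 hj)
      have : N - j = m + (d - j) := by omega
      rw [this, pow_add]
      ring
    · intro j _ hj
      have hj' : d < j := by
        by_contra h
        exact hj (Finset.mem_range.2 (by omega))
      rw [homogeneousComponent_eq_zero j Q hj', map_zero, zero_mul]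
  have h4 : Finset.range (N + 1) = insert 0 (Finset.Icc 1 N) := by
    ext j
    simp only [Finset.mem_range, Finset.mem_insert, Finset.mem_Icc]
    omega
  rw [h4, Finset.sum_insert (by simp), homogeneousComponent_zero, aeval_C, Nat.sub_zero] at h3
  have hc' : coeff 0 Q = c := rfl
  rw [hc'] at h3
  refine ⟨N, fun j => C (-c⁻¹) * homogeneousComponent j Q,
    fun j => (homogeneousComponent_isHomogeneous j Q).C_mul _, ?_⟩
  have h5 : ∑ j ∈ Finset.Icc 1 N, aeval v (C (-c⁻¹) * homogeneousComponent j Q) * w ^ (N - j) =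
      algebraMap K A' (-c⁻¹) *
        ∑ j ∈ Finset.Icc 1 N, aeval v (homogeneousComponent j Q) * w ^ (N - j) := by
    rw [Finset.mul_sum]
    refine Finset.sum_congr rfl fun j _ => ?_
    rw [map_mul, aeval_C, mul_assoc]
  rw [h5, eq_neg_of_add_eq_zero_right h3, map_neg, neg_mul_neg, ← mul_assoc, ← map_mul,
    inv_mul_cancel₀ hQ0, map_one, one_mul]

/-- **Transfer lemma.**  See `wip_helper17/S17/BLUEPRINT.md` §0 for the proof:
`B = K[v_i/w] ⊆ A'_w` (`Localization.Away w`), `J = (v_i/w)`.  If `1 ∈ J`, clear denominators.  Otherwise `B/J = K`; take a minimal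
prime `p ≤ J` of `B` (`Ideal.exists_minimalPrimes_le`), a prime `P` of `A'_w` over it
(`Ideal.exists_comap_eq_of_mem_minimalPrimes_of_injective`), `Ω = FractionRing (A'_w ⧸ P)`, the image `R` of `B` in `Ω`
with `θ : R → K` (kernel = image of `J`), and apply `exists_resVal_of_hom`. -/
theorem transfer {K : Type u} [Field K] [IsAlgClosed K] {A' : Type u} [CommRing A'] [Algebra K A']
    {ι : Type} [Finite ι] (w : A') (v : ι → A')
    (H : ∀ (Ω : Type u) [Field Ω] [Algebra K Ω] (φ : A' →ₐ[K] Ω) (V : ResVal K Ω),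
      φ w = 0 ∨ ∃ i, V.val (φ w) ≤ V.val (φ (v i))) :
    HomIntegral K w v := by
  classical
  let Aw := Localization.Away w
  let x : ι → Aw := fun i => IsLocalization.mk' Aw (v i) (⟨w, Submonoid.mem_powers w⟩ : Submonoid.powers w)
  have hx : ∀ i, algebraMap A' Aw w * x i = algebraMap A' Aw (v i) := by
    intro i
    rw [mul_comm]
    exact IsLocalization.mk'_spec Aw (v i) (⟨w, Submonoid.mem_powers w⟩ : Submonoid.powers w)
  by_cases hrel : ∃ Q : MvPolynomial ι K, constantCoeff Q ≠ 0 ∧ aeval x Q = 0
  · obtain ⟨Q, hQ0, hQ⟩ := hrel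
    exact transfer_of_relation w v x hx Q hQ0 hQ
  exfalso
  replace hrel : ∀ Q : MvPolynomial ι K, constantCoeff Q ≠ 0 → aeval x Q ≠ 0 :=
    fun Q hQ h => hrel ⟨Q, hQ, h⟩
  -- the multiplicative set of the `Q(x)` with `Q(0) ≠ 0`
  let S₀ : Submonoid (MvPolynomial ι K) :=
    { carrier := {Q | constantCoeff Q ≠ 0}
      mul_mem' := fun {a b} ha hb => by
        change constantCoeff (a * b) ≠ 0
        rw [map_mul]
        exact mul_ne_zero ha hb
      one_mem' := by
        change constantCoeff (1 : MvPolynomial ι K) ≠ 0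
        rw [map_one]
        exact one_ne_zero }
  let S : Submonoid Aw := S₀.map (aeval x : MvPolynomial ι K →ₐ[K] Aw)
  have hdisj : Disjoint ((⊥ : Ideal Aw) : Set Aw) S := by
    rw [Set.disjoint_left]
    rintro a ha ⟨Q, hQ, rfl⟩
    exact hrel Q hQ ha
  obtain ⟨P, hP, -, hPS⟩ := Ideal.exists_le_prime_disjoint (⊥ : Ideal Aw) S hdisj
  let Ω := FractionRing (Aw ⧸ P)
  let ψ : Aw →ₐ[K] Ω := (IsScalarTower.toAlgHom K (Aw ⧸ P) Ω).comp (Ideal.Quotient.mkₐ K P)
  have hψ : ∀ a, ψ a = 0 → a ∈ P := by
    intro a ha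
    have : algebraMap (Aw ⧸ P) Ω (Ideal.Quotient.mk P a) = 0 := ha
    rw [map_eq_zero_iff _ (IsFractionRing.injective (Aw ⧸ P) Ω)] at this
    exact Ideal.Quotient.eq_zero_iff_mem.1 this
  let f : MvPolynomial ι K →ₐ[K] Ω := ψ.comp (aeval x)
  let ε : MvPolynomial ι K →ₐ[K] K := aeval (fun _ => (0 : K))
  have hε : ∀ Q, ε Q = constantCoeff Q := by
    intro Q
    simp [ε, MvPolynomial.aeval_def, constantCoeff_eq, MvPolynomial.eval₂_zero'_apply]
  have hker : ∀ Q, f Q = 0 → ε Q = 0 := by
    intro Q hQ
    by_contra h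
    rw [hε] at h
    exact Set.disjoint_left.1 hPS (hψ _ hQ) ⟨Q, h, rfl⟩
  let f' : MvPolynomial ι K →ₐ[K] f.range := f.rangeRestrict
  have hf' : Function.Surjective f' := f.rangeRestrict_surjective
  have hker' : ∀ Q ∈ RingHom.ker f', ε Q = 0 := fun Q hQ => hker Q (by
    have : f' Q = 0 := hQ
    exact congrArg Subtype.val this)
  let θ : f.range →ₐ[K] K :=
    (Ideal.Quotient.liftₐ (RingHom.ker f') ε hker').comp
      (Ideal.quotientKerAlgEquivOfSurjective hf').symm.toAlgHom
  have hθ : ∀ Q, θ (f' Q) = ε Q := by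
    intro Q
    have : (Ideal.quotientKerAlgEquivOfSurjective hf').symm (f' Q) =
        Ideal.Quotient.mk (RingHom.ker f') Q := by
      rw [AlgEquiv.symm_apply_eq]
      rfl
    change (Ideal.Quotient.liftₐ (RingHom.ker f') ε hker')
      ((Ideal.quotientKerAlgEquivOfSurjective hf').symm (f' Q)) = ε Q
    rw [this]
    rfl
  obtain ⟨V, hV⟩ := exists_resVal_of_hom f.range θ
  let φ : A' →ₐ[K] Ω := ψ.comp (IsScalarTower.toAlgHom K A' Aw)
  have hφw : φ w ≠ 0 := by
    have hu : IsUnit (algebraMap A' Aw w) :=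
      IsLocalization.map_units Aw (⟨w, Submonoid.mem_powers w⟩ : Submonoid.powers w)
    exact (hu.map ψ).ne_zero
  rcases H Ω φ V with h0 | ⟨i, hi⟩
  · exact hφw h0
  · obtain ⟨hmem, hres⟩ := hV (f' (X i))
    rw [hθ, hε, constantCoeff_X] at hres
    have hlt := (V.res_eq_zero_iff _).1 hres
    have hfx : ((f' (X i) : f.range) : Ω) = ψ (x i) := by
      change ψ (aeval x (X i)) = _
      rw [aeval_X]
    have hmul : φ w * ψ (x i) = φ (v i) := by
      change ψ (algebraMap A' Aw w) * ψ (x i) = ψ (algebraMap A' Aw (v i))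
      rw [← map_mul, hx]
    simp only [hfx] at hlt
    rw [← hmul, map_mul] at hi
    have hpos : 0 < V.val (φ w) := zero_lt_iff.2 ((Valuation.ne_zero_iff _).2 hφw)
    have : V.val (φ w) * V.val (ψ (x i)) < V.val (φ w) * 1 := by
      exact mul_lt_mul_of_pos_left hlt hpos
    rw [mul_one] at this
    exact absurd hi (not_le.2 this)

/-- In the full function ring `T → K`: finitely many functions without common zero cannot all be
killed by a ring hom to a nontrivial ring. -/
theorem exists_map_ne_zero_of_no_common_zero {K : Type*} [Field K] {T : Type*} {Ω : Type*} [Field Ω]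
    {ι : Type*} [Finite ι] (φ : (T → K) →+* Ω) (u : ι → T → K) (hu : ∀ t, ∃ i, u i t ≠ 0) :
    ∃ i, φ (u i) ≠ 0 := by
  classical
  cases nonempty_fintype ι
  choose i₀ hi₀ using hu
  let g : ι → T → K := fun i t => if i = i₀ t then (u i t)⁻¹ else 0
  have h1 : ∑ i, g i * u i = 1 := by
    funext t
    rw [Finset.sum_apply]
    simp only [Pi.mul_apply, g, ite_mul, zero_mul, Pi.one_apply]
    rw [Finset.sum_ite_eq' Finset.univ (i₀ t), if_pos (Finset.mem_univ _), inv_mul_cancel₀ (hi₀ t)]
  by_contra h
  replace h : ∀ i, φ (u i) = 0 := fun i => by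
    by_contra hi
    exact h ⟨i, hi⟩
  have h2 := congrArg φ h1
  rw [map_sum, map_one] at h2
  simp only [map_mul, h, mul_zero, Finset.sum_const_zero] at h2
  exact zero_ne_one h2

/-- A function without zeros is mapped to a nonzero element. -/
theorem map_ne_zero_of_forall_ne_zero {K : Type*} [Field K] {T : Type*} {Ω : Type*} [Field Ω]
    (φ : (T → K) →+* Ω) (u : T → K) (hu : ∀ t, u t ≠ 0) : φ u ≠ 0 := by
  have h1 : u * (fun t => (u t)⁻¹) = 1 := by
    funext t
    exact mul_inv_cancel₀ (hu t)
  intro h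
  have h2 := congrArg φ h1
  rw [map_mul, h, zero_mul, map_one] at h2
  exact zero_ne_one h2

end Fermat.Agent.S17
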